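import Fermat.Agent.S17.GEO.Family
import Fermat.Agent.S18.W.Infty
import Fermat.Agent.S24.Degree
import Fermat.Statements.S17

set_option autoImplicit false

/-!
# S17 / GEO : the rational curve `X₀(N)`
-/

namespace Fermat.Agent.S17.GEO

open AlgebraicCurve ModularCurve Fermat.Agent.S24 Fermat.Agent.RL HL

set_option linter.unusedSectionVars false

theorem inst_mem_adjoin (F₀ : IntermediateField ℚ (LaurentSeries ℚ)) (x : LaurentSeries Qb)
    (hx : x ∈ laurentBaseChange Qb F₀) :
    x ∈ Algebra.adjoin Qb (⇑(coeffEmb Qb) '' (F₀ : Set (LaurentSeries ℚ))) := by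
  let _ : Algebra F₀ (LaurentSeries Qb) :=
    ((coeffEmb Qb).comp (algebraMap F₀ (LaurentSeries ℚ))).toAlgebra
  set B := Algebra.adjoin Qb (⇑(coeffEmb Qb) '' (F₀ : Set (LaurentSeries ℚ))) with hB
  have halg : ∀ y ∈ B, IsAlgebraic F₀ y := by
    intro y hy
    induction hy using Algebra.adjoin_induction with
    | mem z hz =>
      obtain ⟨w, hw, rfl⟩ := hz
      exact isAlgebraic_algebraMap (⟨w, hw⟩ : F₀)
    | algebraMap a =>
      have : Algebra.IsAlgebraic ℚ Qb := AlgebraicClosure.isAlgebraic ℚ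
      obtain ⟨p, hp0, hp⟩ : IsAlgebraic ℚ a := Algebra.IsAlgebraic.isAlgebraic a
      refine ⟨p.map (algebraMap ℚ F₀), ?_, ?_⟩
      · exact (Polynomial.map_ne_zero_iff (algebraMap ℚ F₀).injective).mpr hp0
      · rw [Polynomial.aeval_def, Polynomial.eval₂_map,
          Subsingleton.elim ((algebraMap F₀ (LaurentSeries Qb)).comp (algebraMap ℚ F₀))
            ((algebraMap Qb (LaurentSeries Qb)).comp (algebraMap ℚ Qb)),
          ← Polynomial.hom_eval₂, ← Polynomial.aeval_def, hp, map_zero]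
    | add y z _ _ ihy ihz => exact ihy.add ihz
    | mul y z _ _ ihy ihz => exact ihy.mul ihz
  let A' : Subalgebra F₀ (LaurentSeries Qb) :=
    { B.toSubsemiring with
      algebraMap_mem' := fun f => Algebra.subset_adjoin ⟨f.1, f.2, rfl⟩ }
  have hinv : ∀ y ∈ B, y⁻¹ ∈ B := fun y hy =>
    A'.inv_mem_of_algebraic (x := ⟨y, hy⟩) (halg y hy)
  have hle : laurentBaseChange Qb F₀ ≤ Subalgebra.toIntermediateField B hinv :=
    IntermediateField.adjoin_le_iff.mpr Algebra.subset_adjoin
  exact hle hx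

theorem inst_key {L E : Type*} [Field L] [Field E] [Algebra L E] (M : IntermediateField L E)
    (T : Set E) (S : Set M) (hT : ∀ t ∈ T, ∃ ht : t ∈ M, (⟨t, ht⟩ : M) ∈ S) :
    ∀ x ∈ Algebra.adjoin L T, ∃ hx : x ∈ M, (⟨x, hx⟩ : M) ∈ Algebra.adjoin L S := by
  intro x hx
  induction hx using Algebra.adjoin_induction with
  | mem z hz =>
    obtain ⟨h1, h2⟩ := hT z hz
    exact ⟨h1, Algebra.subset_adjoin h2⟩
  | algebraMap a => exact ⟨M.algebraMap_mem a, Subalgebra.algebraMap_mem _ a⟩
  | add y z _ _ ihy ihz =>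
    obtain ⟨hy, hy'⟩ := ihy
    obtain ⟨hz, hz'⟩ := ihz
    exact ⟨add_mem hy hz, add_mem hy' hz'⟩
  | mul y z _ _ ihy ihz =>
    obtain ⟨hy, hy'⟩ := ihy
    obtain ⟨hz, hz'⟩ := ihz
    exact ⟨mul_mem hy hz, mul_mem hy' hz'⟩

theorem inst_span_of_adjoin {L M : Type*} [Field L] [Field M] [Algebra L M] (S : Submonoid M)
    (x : M) (hx : x ∈ Algebra.adjoin L (S : Set M)) : x ∈ Submodule.span L (S : Set M) := by
  have h3 : x ∈ Subalgebra.toSubmodule (Algebra.adjoin L (S : Set M)) := hx
  rw [Algebra.adjoin_eq_span, Submonoid.closure_eq] at h3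
  exact h3

variable (N : ℕ) [NeZero N]

theorem exists_place_inf : ∃ Q : Place Qb (FN N), ∀ f : FN N, f ≠ 0 → Q.ord f = f.1.order := by
  have hj : (jF N : FN N).1.order = -1 := by
    show (Jser 1).order = -1
    rw [degree_Jser_one]
    exact S18.Infty.order_jq _
  obtain ⟨Q, -, hQ⟩ := S18.Infty.exists_place_of_order (modularFunctionFieldBar N) (jF N) hj
  exact ⟨Q, hQ⟩

noncomputable def placeInf : Place Qb (FN N) := (exists_place_inf N).choose

theorem ord_placeInf (f : FN N) (hf : f ≠ 0) : (placeInf N).ord f = f.1.order :=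
  (exists_place_inf N).choose_spec f hf

theorem inst_order_coeffMap (σ : GQ) (x : LaurentSeries Qb) :
    (coeffMap (σ : Qb →+* Qb) x).order = x.order := by
  rcases eq_or_ne x 0 with rfl | hx
  · rw [map_zero]
  have hx' : coeffMap (σ : Qb →+* Qb) x ≠ 0 := by
    intro h0
    apply hx
    ext n
    have h1 := congrArg (fun s => s.coeff n) h0
    simp only [coeffMap_coeff, HahnSeries.coeff_zero] at h1
    rw [HahnSeries.coeff_zero]
    exact (map_eq_zero_iff (σ : Qb →+* Qb) σ.injective).mp h1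
  apply le_antisymm
  · apply HahnSeries.order_le_of_coeff_ne_zero
    rw [coeffMap_coeff]
    intro h0
    exact hx (HahnSeries.coeff_order_eq_zero.mp
      ((map_eq_zero_iff (σ : Qb →+* Qb) σ.injective).mp h0))
  · apply HahnSeries.order_le_of_coeff_ne_zero
    intro h0
    apply hx'
    apply HahnSeries.coeff_order_eq_zero.mp
    rw [coeffMap_coeff, h0, map_zero]

theorem smul_placeInf (σ : GQ) :
    arithmeticGalois (modularFunctionFieldFull N) σ • placeInf N = placeInf N := by
  apply place_ext_of_le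
  intro f hf
  rw [mem_iff_ord_nonneg] at hf ⊢
  rcases eq_or_ne f 0 with rfl | hf0
  · simp
  set g := arithmeticGalois (modularFunctionFieldFull N) σ with hg
  have h1 := SemilinearAut.ord_smul g (placeInf N) (g⁻¹ • f)
  rw [smul_inv_smul] at h1
  rw [h1] at hf
  have hne : g⁻¹ • f ≠ 0 := by
    intro h0
    apply hf0
    have := congrArg (fun y => g • y) h0
    simpa using this
  rw [ord_placeInf N _ hne] at hf
  rw [ord_placeInf N _ hf0]
  have h2 : (f : LaurentSeries Qb) = coeffMap (σ : Qb →+* Qb) ((g⁻¹ • f : FN N) : LaurentSeries Qb) := by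
    rw [← coe_arithmeticGalois_smul, ← hg, smul_inv_smul]
  rw [h2, inst_order_coeffMap]
  exact hf

theorem span_invariants (f : FN N) :
    f ∈ Submodule.span Qb
      {f : FN N | ∀ σ : GQ, arithmeticGalois (modularFunctionFieldFull N) σ • f = f} := by
  set S := {f : FN N | ∀ σ : GQ, arithmeticGalois (modularFunctionFieldFull N) σ • f = f} with hS
  set F₀ := modularFunctionFieldFull N with hF₀
  have h1 := inst_mem_adjoin F₀ f.1 f.2
  have key := inst_key (modularFunctionFieldBar N)
    (⇑(coeffEmb Qb) '' (F₀ : Set (LaurentSeries ℚ))) S (by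
      rintro _ ⟨w, hw, rfl⟩
      refine ⟨coeffEmb_mem_laurentBaseChange Qb hw, ?_⟩
      intro σ
      apply Subtype.ext
      rw [coe_arithmeticGalois_smul]
      exact coeffMap_coeffEmb σ w)
  obtain ⟨_, h2⟩ := key f.1 h1
  let Sm : Submonoid (FN N) :=
    { carrier := S
      one_mem' := fun σ => smul_one _
      mul_mem' := fun {a b} ha hb σ => by rw [smul_mul', ha σ, hb σ] }
  exact inst_span_of_adjoin Sm f h2

/-- `X₀(N)` as a rational curve -/
noncomputable def ratX0 : RatCurve where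
  F := FN N
  ff1 := isFF1_FN N
  o := placeInf N
  ρ := arithmeticGalois (modularFunctionFieldFull N)
  base := fun _ _ => rfl
  fix_o := smul_placeInf N
  span := span_invariants N

/-- the invariants of the statement are `Gam`. -/
theorem fixedPoints_eq :
    (FixedPoints.addSubgroup ((AlgebraicClosure ℚ) ≃ₐ[ℚ] (AlgebraicClosure ℚ)) (JZero N)) =
      (ratX0 N).Gam := by
  ext x
  exact Iff.rfl

theorem inst_transport {G : Type*} [AddCommGroup G] {A B : AddSubgroup G} (h : A = B)
    (hB : (nsmulAddMonoidHom (α := B) 2).range.FiniteIndex → AddGroup.FG B) :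
    (nsmulAddMonoidHom (α := A) 2).range.FiniteIndex → AddGroup.FG A := by
  subst h
  exact hB

/-- **Deliverable of HT + GEO**: Mordell-Weil for `J₀(N)` from weak Mordell-Weil. -/
theorem fg_of_weak
    (H : (nsmulAddMonoidHom
      (α := ↥(FixedPoints.addSubgroup ((AlgebraicClosure ℚ) ≃ₐ[ℚ] (AlgebraicClosure ℚ)) (JZero N)))
        2).range.FiniteIndex) :
    AddGroup.FG
      ↥(FixedPoints.addSubgroup ((AlgebraicClosure ℚ) ≃ₐ[ℚ] (AlgebraicClosure ℚ)) (JZero N)) :=
  inst_transport (fixedPoints_eq N) (ratX0 N).fg_Gam H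

end Fermat.Agent.S17.GEO
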