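import Fermat.Agent.RL.Riemann

set_option autoImplicit false

/-!
# S17 / GEO : the base divisor of a finite dimensional space of functions, and a pencil generating it
-/

namespace Fermat.Agent.S17.GEO

open AlgebraicCurve Fermat.Agent.S24 Fermat.Agent.RL

variable {K F : Type} [Field K] [Field F] [Algebra K F] [IsAlgClosed K] [CharZero K]
  (h : IsFF1 K F)

include h

/-- **Base divisor.**  For a basis `b i` of `U` put `μ v = min_i ord_v (b i)` (finitely supported: `exists_div`), `D = - μ`.  Then `U ≤ L(D)` and for every `v` the set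
`U_v = {u ∈ U : u = 0 ∨ ord_v u > μ v}` is a proper subspace. -/
theorem exists_baseDiv (U : Submodule K F) [FiniteDimensional K U] (hU : U ≠ ⊥) :
    ∃ D : Divisor K F, U ≤ LSpace D ∧ ∀ v : Place K F, ∃ u ∈ U, u ≠ 0 ∧ v.ord u = - D v := by
  classical
  have hfin : ∀ b : F, b ≠ 0 → {v : Place K F | v.ord b ≠ 0}.Finite := by
    intro b hb
    obtain ⟨E, hE, -⟩ := exists_div h hb
    refine E.support.finite_toSet.subset ?_
    intro v hv
    rw [Finset.mem_coe, Finsupp.mem_support_iff, hE]
    exact hv
  obtain ⟨S, hS⟩ : U.FG := (Submodule.fg_iff_finiteDimensional U).2 inferInstance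
  have hS' : Submodule.span K ((S.erase 0 : Finset F) : Set F) = U := by
    rw [Finset.coe_erase, Submodule.span_sdiff_singleton_zero, hS]
  have hne : (S.erase 0).Nonempty := by
    rw [Finset.nonempty_iff_ne_empty]
    intro h0
    rw [h0, Finset.coe_empty, Submodule.span_empty] at hS'
    exact hU hS'.symm
  have hb0 : ∀ b ∈ S.erase 0, b ≠ 0 := fun b hb => (Finset.mem_erase.1 hb).1
  let μ : Place K F → ℤ := fun v => (S.erase 0).inf' hne (fun b => v.ord b)
  have hμfin : (Function.support fun v => - μ v).Finite := by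
    have h1 : (⋃ b ∈ S.erase 0, {v : Place K F | v.ord b ≠ 0}).Finite :=
      Set.Finite.biUnion (S.erase 0).finite_toSet fun b hb => hfin b (hb0 b hb)
    refine h1.subset ?_
    intro v hv
    rw [Function.mem_support] at hv
    obtain ⟨b, hb, hbv⟩ := Finset.exists_mem_eq_inf' hne (fun b => v.ord b)
    rw [Set.mem_iUnion₂]
    refine ⟨b, hb, ?_⟩
    rw [Set.mem_ofPred_eq, ← hbv]
    intro h0
    exact hv (by show - μ v = 0; rw [show μ v = 0 from h0, neg_zero])
  refine ⟨Finsupp.ofSupportFinite (fun v => - μ v) hμfin, ?_, ?_⟩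
  · rw [← hS', Submodule.span_le]
    intro b hb
    right
    intro v
    rw [Finsupp.ofSupportFinite_coe]
    have : μ v ≤ v.ord b := Finset.inf'_le (fun b => v.ord b) hb
    omega
  · intro v
    obtain ⟨b, hb, hbv⟩ := Finset.exists_mem_eq_inf' hne (fun b => v.ord b)
    refine ⟨b, ?_, hb0 b hb, ?_⟩
    · rw [← hS']
      exact Submodule.subset_span hb
    · rw [Finsupp.ofSupportFinite_coe, neg_neg]
      exact hbv.symm

/-- **Generating pencil.**  `a0 ∈ U` non zero arbitrary; `T = {v : ord_v a0 > - D v}` is finite; `a1 ∈ U` outside the finitely many proper subspaces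
`U_v`, `v ∈ T`, and `≠ 0` (`Subspace.biUnion_ne_univ_of_top_notMem` or the like: a vector space over an infinite field is not a finite union of
proper subspaces). -/
theorem exists_pencil (U : Submodule K F) [FiniteDimensional K U] (hU : U ≠ ⊥) :
    ∃ (D : Divisor K F) (a0 a1 : F), a0 ∈ U ∧ a1 ∈ U ∧ a0 ≠ 0 ∧ a1 ≠ 0 ∧ U ≤ LSpace D ∧
      ∀ v : Place K F, min (v.ord a0) (v.ord a1) = - D v := by
  classical
  obtain ⟨D, hUD, hD⟩ := exists_baseDiv h U hU
  obtain ⟨a0, ha0, ha00⟩ := (Submodule.ne_bot_iff U).1 hU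
  have hge : ∀ u ∈ U, u ≠ 0 → ∀ v : Place K F, - D v ≤ v.ord u := by
    intro u hu hu0 v
    rcases hUD hu with h' | h'
    · exact absurd h' hu0
    · have := h' v
      omega
  have hT : {v : Place K F | - D v < v.ord a0}.Finite := by
    obtain ⟨E, hE, -⟩ := exists_div h ha00
    refine (E.support ∪ D.support).finite_toSet.subset ?_
    intro v hv
    rw [Set.mem_ofPred_eq] at hv
    rw [Finset.mem_coe, Finset.mem_union, Finsupp.mem_support_iff, Finsupp.mem_support_iff, hE]
    omega
  have : Finite {v : Place K F | - D v < v.ord a0} := hT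
  let p : Option {v : Place K F | - D v < v.ord a0} → Subspace K U := fun i =>
    match i with
    | none => ⊥
    | some v => (LSpace (D - pt v.1)).comap U.subtype
  have hex : ∃ a1 : U, ∀ i, a1 ∉ p i := by
    by_contra hcon
    push Not at hcon
    have hcov : ⋃ i, (p i : Set U) = Set.univ := by
      rw [Set.eq_univ_iff_forall]
      intro a
      obtain ⟨i, hi⟩ := hcon a
      exact Set.mem_iUnion.2 ⟨i, hi⟩
    obtain ⟨i, hi⟩ := Subspace.exists_eq_top_of_iUnion_eq_univ hcov
    cases i with
    | none =>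
      have h1 : (⟨a0, ha0⟩ : U) ∈ (⊥ : Subspace K U) := by
        rw [show (⊥ : Subspace K U) = ⊤ from hi]
        exact Submodule.mem_top
      rw [Submodule.mem_bot] at h1
      exact ha00 (congrArg Subtype.val h1)
    | some v =>
      obtain ⟨u, hu, hu0, huv⟩ := hD v.1
      have h1 : (⟨u, hu⟩ : U) ∈ (LSpace (D - pt v.1)).comap U.subtype := by
        rw [show (LSpace (D - pt v.1)).comap U.subtype = ⊤ from hi]
        exact Submodule.mem_top
      rw [Submodule.mem_comap] at h1
      rcases h1 with h1 | h1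
      · exact hu0 h1
      · have := h1 v.1
        rw [Finsupp.sub_apply, Finsupp.single_eq_same] at this
        have h2 : v.1.ord (U.subtype ⟨u, hu⟩) = - D v.1 := huv
        omega
  obtain ⟨a1, ha1⟩ := hex
  have ha10 : (a1 : F) ≠ 0 := by
    intro h0
    apply ha1 none
    show a1 ∈ (⊥ : Subspace K U)
    rw [Submodule.mem_bot]
    exact Subtype.ext h0
  refine ⟨D, a0, a1, ha0, a1.2, ha00, ha10, hUD, fun v => ?_⟩
  have g0 := hge a0 ha0 ha00 v
  have g1 := hge a1 a1.2 ha10 v
  by_cases hv : - D v < v.ord a0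
  · have h1 := ha1 (some ⟨v, hv⟩)
    have h2 : ¬ (0 ≤ v.ord (a1 : F) + (D - pt v) v) := by
      intro h3
      apply h1
      show (a1 : F) ∈ LSpace (D - pt v)
      right
      intro w
      by_cases hw : w = v
      · rw [hw]; exact h3
      · have := hge a1 a1.2 ha10 w
        rw [Finsupp.sub_apply, Finsupp.single_eq_of_ne hw]
        omega
    rw [Finsupp.sub_apply, Finsupp.single_eq_same] at h2
    rw [min_eq_right (by omega)]
    omega
  · rw [min_eq_left (by omega)]
    omega

end Fermat.Agent.S17.GEO
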