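import Fermat.Agent.S17.GEO.Pencil
import Fermat.Agent.S17.GEO.BaseDiv

set_option autoImplicit false

/-!
# S17 / GEO : closedness of the family `{L(m o - E)}` and surjectivity of multiplication (abstract form of `HypUS`)
-/

namespace Fermat.Agent.S17.GEO

open AlgebraicCurve Fermat.Agent.S24 Fermat.Agent.RL

variable {K F : Type} [Field K] [Field F] [Algebra K F] [IsAlgClosed K] [CharZero K]
  (h : IsFF1 K F)

include h

omit [CharZero K] in
theorem absUS_degree_single (o : Place K F) (n : ℕ) :
    Divisor.degree (Finsupp.single o (n : ℤ) : Divisor K F) = n := by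
  rw [Divisor.degree_single, deg_eq_one h o]
  simp

/-- **(CH)**  A subspace `U ≤ L(m o)` of codimension `e` such that `L(j o) U` has codimension `≥ e` in `L((j+m) o)` is `L(D)` with `deg D = m - e`, and contains a
pencil generating `D`.
Proof: `(D, a0, a1)` from `exists_pencil`; `δ = deg D`.  `ℓ(D) ≥ dim U = m + 1 - g - e ≥ 1` and `ℓ(D) ≤ δ + 1` give `δ ≥ m - g - e ≥ c0`, so `ℓ(D) = δ + 1 - g` and
`δ ≥ m - e`.  `D ≤ m o` pointwise so `δ ≤ m`.  `pencil` with `D' = j o`: `L(D + j o) ≤ L(j o) U`, so `δ + j + 1 - g + e ≤ j + m + 1 - g`: `δ ≤ m - e`.  Equal dimensions. -/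
theorem absCH (c0 : ℕ)
    (hc : ∀ D : Divisor K F, (c0 : ℤ) ≤ Divisor.degree D →
      (ell D : ℤ) = Divisor.degree D + 1 - genusR h)
    (o : Place K F) (m e j : ℕ) (h1 : e + genusR h + c0 ≤ m) (h2 : m + c0 ≤ j)
    (U : Submodule K F) (hU : U ≤ LSpace (Finsupp.single o (m : ℤ)))
    (hdim : Module.finrank K U + e = ell (Finsupp.single o (m : ℤ) : Divisor K F))
    (hrk : Module.finrank K (LSpace (Finsupp.single o (j : ℤ)) * U : Submodule K F) + e ≤
      ell (Finsupp.single o ((j + m : ℕ) : ℤ) : Divisor K F)) :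
    ∃ (D : Divisor K F) (a0 a1 : F), Divisor.degree D = (m : ℤ) - e ∧ U = LSpace D ∧
      a0 ∈ U ∧ a1 ∈ U ∧ a0 ≠ 0 ∧ a1 ≠ 0 ∧ ∀ v : Place K F, min (v.ord a0) (v.ord a1) = - D v := by
  have fd1 := finiteDimensional_LSpace h (Finsupp.single o (m : ℤ) : Divisor K F)
  have fdU : FiniteDimensional K U := Submodule.finiteDimensional_of_le hU
  have em := hc (Finsupp.single o (m : ℤ)) (by rw [absUS_degree_single h]; exact_mod_cast (by omega))
  rw [absUS_degree_single h] at em
  have hUpos : 0 < Module.finrank K U := by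
    have : (Module.finrank K U : ℤ) + e = ell (Finsupp.single o (m : ℤ) : Divisor K F) := by
      exact_mod_cast hdim
    have h1' : (e : ℤ) + genusR h + c0 ≤ m := by exact_mod_cast h1
    have : (0 : ℤ) < Module.finrank K U := by omega
    exact_mod_cast this
  have hUne : U ≠ ⊥ := by
    intro h0
    rw [h0, finrank_bot] at hUpos
    exact lt_irrefl _ hUpos
  obtain ⟨D, a0, a1, ha0, ha1, h00, h10, hUD, hmin⟩ := exists_pencil h U hUne
  have fdD := finiteDimensional_LSpace h D
  have hle : Module.finrank K U ≤ ell D := Submodule.finrank_mono hUD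
  have hdimZ : (Module.finrank K U : ℤ) + e = (m : ℤ) + 1 - genusR h := by
    rw [← em]; exact_mod_cast hdim
  have h1Z : (e : ℤ) + genusR h + c0 ≤ m := by exact_mod_cast h1
  have h2Z : (m : ℤ) + c0 ≤ j := by exact_mod_cast h2
  have hleZ : (Module.finrank K U : ℤ) ≤ ell D := by exact_mod_cast hle
  have hδ0 : 0 ≤ Divisor.degree D := by
    by_contra hneg
    rw [not_le] at hneg
    have := ell_eq_zero_of_degree_neg h hneg
    omega
  have hub := ell_le_degree_add_one h hδ0
  have eD := hc D (by omega)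
  -- `D ≤ m o`
  have hDm : Eff ((Finsupp.single o (m : ℤ) : Divisor K F) - D) := by
    intro v
    rw [Finsupp.sub_apply]
    have b0 : 0 ≤ v.ord a0 + (Finsupp.single o (m : ℤ) : Divisor K F) v := by
      rcases hU ha0 with h' | h'
      · exact absurd h' h00
      · exact h' v
    have b1 : 0 ≤ v.ord a1 + (Finsupp.single o (m : ℤ) : Divisor K F) v := by
      rcases hU ha1 with h' | h'
      · exact absurd h' h10
      · exact h' v
    have hm := hmin v
    rcases min_choice (v.ord a0) (v.ord a1) with hc' | hc' <;> rw [hc'] at hm <;> omega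
  have hδm : Divisor.degree D ≤ m := by
    have := degree_nonneg_of_eff h hDm
    rw [map_sub, absUS_degree_single h] at this
    omega
  have hp := pencil h (c0 : ℤ) hc (D := D) (D' := Finsupp.single o (j : ℤ)) h00 h10 hmin
    (by rw [absUS_degree_single h]; omega) (by rw [absUS_degree_single h]; omega)
    (by rw [absUS_degree_single h]; omega)
  have hsub : LSpace (D + Finsupp.single o (j : ℤ)) ≤
      (LSpace (Finsupp.single o (j : ℤ)) * U : Submodule K F) := by
    intro t ht
    obtain ⟨s0, hs0, s1, hs1, rfl⟩ := hp t ht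
    rw [mul_comm a0, mul_comm a1]
    exact add_mem (Submodule.mul_mem_mul hs0 ha0) (Submodule.mul_mem_mul hs1 ha1)
  have fdP : FiniteDimensional K
      (LSpace (Finsupp.single o (j : ℤ)) * U : Submodule K F) := by
    have := finiteDimensional_LSpace h
      ((Finsupp.single o (j : ℤ) : Divisor K F) + Finsupp.single o (m : ℤ))
    exact Submodule.finiteDimensional_of_le
      ((mul_le_mul' le_rfl hU).trans (LSpace_mul_le _ _))
  have hfr : ell (D + Finsupp.single o (j : ℤ)) ≤
      Module.finrank K (LSpace (Finsupp.single o (j : ℤ)) * U : Submodule K F) :=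
    Submodule.finrank_mono hsub
  have eDj := hc (D + Finsupp.single o (j : ℤ)) (by rw [map_add, absUS_degree_single h]; omega)
  rw [map_add, absUS_degree_single h] at eDj
  have ejm : (ell (Finsupp.single o ((j + m : ℕ) : ℤ) : Divisor K F) : ℤ) =
      (j : ℤ) + m + 1 - genusR h := by
    have := hc (Finsupp.single o ((j + m : ℕ) : ℤ))
      (by rw [absUS_degree_single h]; push_cast; omega)
    rw [absUS_degree_single h] at this
    rw [this]
    push_cast
    ring
  have hfrZ : (ell (D + Finsupp.single o (j : ℤ)) : ℤ) ≤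
      Module.finrank K (LSpace (Finsupp.single o (j : ℤ)) * U : Submodule K F) := by
    exact_mod_cast hfr
  have hrkZ : (Module.finrank K (LSpace (Finsupp.single o (j : ℤ)) * U : Submodule K F) : ℤ) + e ≤
      ell (Finsupp.single o ((j + m : ℕ) : ℤ) : Divisor K F) := by exact_mod_cast hrk
  have hδ : Divisor.degree D = (m : ℤ) - e := by omega
  refine ⟨D, a0, a1, hδ, ?_, ha0, ha1, h00, h10, hmin⟩
  refine Submodule.eq_of_le_of_finrank_le hUD ?_
  have : (Module.finrank K (LSpace D) : ℤ) ≤ Module.finrank K U := by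
    have : (Module.finrank K (LSpace D) : ℤ) = ell D := rfl
    omega
  exact_mod_cast this

/-- **abstract `HypUS`.**  `absCH` for `U` and `U'`; `pencil` for `(D, a0, a1)` and `D'`: `L(D + D') ≤ U U'`; Riemann. -/
theorem absUS (c0 : ℕ)
    (hc : ∀ D : Divisor K F, (c0 : ℤ) ≤ Divisor.degree D →
      (ell D : ℤ) = Divisor.degree D + 1 - genusR h)
    (o : Place K F) (m e j m' e' j' : ℕ) (h1 : e + genusR h + c0 ≤ m) (h2 : m + c0 ≤ j)
    (h1' : e' + genusR h + c0 ≤ m') (h2' : m' + c0 ≤ j') (h3 : m + e' + c0 ≤ m' + e)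
    (U U' : Submodule K F) (hU : U ≤ LSpace (Finsupp.single o (m : ℤ)))
    (hU' : U' ≤ LSpace (Finsupp.single o (m' : ℤ)))
    (hdim : Module.finrank K U + e = ell (Finsupp.single o (m : ℤ) : Divisor K F))
    (hdim' : Module.finrank K U' + e' = ell (Finsupp.single o (m' : ℤ) : Divisor K F))
    (hrk : Module.finrank K (LSpace (Finsupp.single o (j : ℤ)) * U : Submodule K F) + e ≤
      ell (Finsupp.single o ((j + m : ℕ) : ℤ) : Divisor K F))
    (hrk' : Module.finrank K (LSpace (Finsupp.single o (j' : ℤ)) * U' : Submodule K F) + e' ≤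
      ell (Finsupp.single o ((j' + m' : ℕ) : ℤ) : Divisor K F)) :
    ell (Finsupp.single o ((m + m' : ℕ) : ℤ) : Divisor K F) ≤
      Module.finrank K (U * U' : Submodule K F) + e + e' := by
  obtain ⟨D, a0, a1, hδ, rfl, ha0, ha1, h00, h10, hmin⟩ := absCH h c0 hc o m e j h1 h2 U hU hdim hrk
  obtain ⟨D', -, -, hδ', rfl, -, -, -, -, -⟩ := absCH h c0 hc o m' e' j' h1' h2' U' hU' hdim' hrk'
  have h1Z : (e : ℤ) + genusR h + c0 ≤ m := by exact_mod_cast h1
  have h1Z' : (e' : ℤ) + genusR h + c0 ≤ m' := by exact_mod_cast h1'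
  have h3Z : (m : ℤ) + e' + c0 ≤ m' + e := by exact_mod_cast h3
  have hp := pencil h (c0 : ℤ) hc (D := D) (D' := D') h00 h10 hmin (by omega) (by omega) (by omega)
  have hsub : LSpace (D + D') ≤ (LSpace D * LSpace D' : Submodule K F) := by
    intro t ht
    obtain ⟨s0, hs0, s1, hs1, rfl⟩ := hp t ht
    exact add_mem (Submodule.mul_mem_mul ha0 hs0) (Submodule.mul_mem_mul ha1 hs1)
  have fdP : FiniteDimensional K (LSpace D * LSpace D' : Submodule K F) := by
    have := finiteDimensional_LSpace h (D + D')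
    exact Submodule.finiteDimensional_of_le (LSpace_mul_le _ _)
  have hfr : ell (D + D') ≤ Module.finrank K (LSpace D * LSpace D' : Submodule K F) :=
    Submodule.finrank_mono hsub
  have eDD := hc (D + D') (by rw [map_add]; omega)
  rw [map_add] at eDD
  have emm : (ell (Finsupp.single o ((m + m' : ℕ) : ℤ) : Divisor K F) : ℤ) =
      (m : ℤ) + m' + 1 - genusR h := by
    have := hc (Finsupp.single o ((m + m' : ℕ) : ℤ))
      (by rw [absUS_degree_single h]; push_cast; omega)
    rw [absUS_degree_single h] at this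
    rw [this]
    push_cast
    ring
  have hfrZ : (ell (D + D') : ℤ) ≤ Module.finrank K (LSpace D * LSpace D' : Submodule K F) := by
    exact_mod_cast hfr
  have : (ell (Finsupp.single o ((m + m' : ℕ) : ℤ) : Divisor K F) : ℤ) ≤
      Module.finrank K (LSpace D * LSpace D' : Submodule K F) + e + e' := by omega
  exact_mod_cast this

end Fermat.Agent.S17.GEO
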