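import Fermat.Agent.S17.GEO.Defs

set_option autoImplicit false

/-!
# S17 / GEO : the divisor of a function
-/

namespace Fermat.Agent.S17.GEO

open AlgebraicCurve Fermat.Agent.S24 Fermat.Agent.RL

variable {K F : Type} [Field K] [Field F] [Algebra K F] [IsAlgClosed K] [CharZero K]
  (h : IsFF1 K F)

theorem dvs_apply (f : F) (v : Place K F) : dvs h f v = v.ord f := by
  unfold dvs
  split_ifs with hf
  · exact (exists_div h hf).choose_spec.1 v
  · rw [not_not] at hf
    rw [hf, Place.ord_zero]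
    rfl

theorem degree_dvs (f : F) : Divisor.degree (dvs h f) = 0 := by
  unfold dvs
  split_ifs with hf
  · exact (exists_div h hf).choose_spec.2
  · exact map_zero _

theorem dvs_mul {f f' : F} (hf : f ≠ 0) (hf' : f' ≠ 0) : dvs h (f * f') = dvs h f + dvs h f' := by
  ext v
  rw [Finsupp.add_apply, dvs_apply, dvs_apply, dvs_apply, v.ord_mul hf hf']

theorem dvs_smul {c : K} (hc : c ≠ 0) (f : F) : dvs h (c • f) = dvs h f := by
  ext v
  rw [dvs_apply, dvs_apply]
  by_cases hf : f = 0
  · rw [hf, smul_zero]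
  · rw [Algebra.smul_def, v.ord_mul ((map_ne_zero _).2 hc) hf, ord_algebraMap, zero_add]

@[simp] theorem dvs_one : dvs h (1 : F) = 0 := by
  ext v
  rw [dvs_apply, Finsupp.zero_apply, ← map_one (algebraMap K F), ord_algebraMap]

theorem dvs_inv (f : F) : dvs h f⁻¹ = - dvs h f := by
  ext v
  rw [Finsupp.neg_apply, dvs_apply, dvs_apply, Place.ord_inv]

theorem dvs_semilinear (g : SemilinearAut K F) (f : F) : dvs h (g • f) = g • dvs h f := by
  ext v
  rw [SemilinearAut.divisor_smul_apply, dvs_apply, dvs_apply]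
  have := SemilinearAut.ord_smul g (g⁻¹ • v) f
  rwa [smul_inv_smul] at this

theorem mem_LSpace_iff_dvs {D : Divisor K F} {f : F} (hf : f ≠ 0) :
    f ∈ LSpace D ↔ Eff (dvs h f + D) := by
  rw [mem_LSpace]
  constructor
  · rintro (h0 | h0)
    · exact absurd h0 hf
    · intro v
      rw [Finsupp.add_apply, dvs_apply]
      exact h0 v
  · intro h0
    right
    intro v
    have := h0 v
    rwa [Finsupp.add_apply, dvs_apply] at this

/-- functions with the same divisor differ by a constant (`onlyConst_zero`). -/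
theorem exists_smul_of_dvs_eq {f f' : F} (hf : f ≠ 0) (hf' : f' ≠ 0) (he : dvs h f = dvs h f') :
    ∃ c : K, c ≠ 0 ∧ f' = c • f := by
  have hmem : f' / f ∈ LSpace (0 : Divisor K F) := by
    right
    intro v
    rw [Finsupp.zero_apply, add_zero, ord_div v hf' hf, ← dvs_apply h, ← dvs_apply h, he, sub_self]
  obtain ⟨c, hc⟩ := onlyConst_zero h _ hmem
  refine ⟨c, ?_, ?_⟩
  · rintro rfl
    rw [map_zero] at hc
    exact div_ne_zero hf' hf hc.symm
  · rw [Algebra.smul_def, hc, div_mul_cancel₀ _ hf]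

theorem linEq_iff_dvs {D D' : Divisor K F} : LinEq D D' ↔ ∃ f : F, f ≠ 0 ∧ D' = D + dvs h f := by
  constructor
  · rintro ⟨f, hf, h1⟩
    refine ⟨f, hf, ?_⟩
    ext v
    rw [h1 v, Finsupp.add_apply, dvs_apply]
  · rintro ⟨f, hf, rfl⟩
    exact ⟨f, hf, fun v => by rw [Finsupp.add_apply, dvs_apply]⟩

end Fermat.Agent.S17.GEO
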