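import Fermat.Agent.S17.GEO.Defs

set_option autoImplicit false

/-!
# S17 / GEO : effective divisors as multisets of places
-/

namespace Fermat.Agent.S17.GEO

open AlgebraicCurve Fermat.Agent.S24 Fermat.Agent.RL

variable {K F : Type} [Field K] [Field F] [Algebra K F]

open Classical in
theorem count_toMS (D : Divisor K F) (v : Place K F) : (toMS D).count v = (D v).toNat := by
  unfold toMS
  rw [Finsupp.count_toMultiset, Finsupp.mapRange_apply]

open Classical in
theorem ofMS_apply (E : Multiset (Place K F)) (v : Place K F) : ofMS E v = (E.count v : ℤ) := by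
  unfold ofMS
  rw [Finsupp.mapRange_apply, Multiset.toFinsupp_apply]

theorem eff_ofMS (E : Multiset (Place K F)) : Eff (ofMS E) := by
  classical
  intro v
  rw [ofMS_apply]
  exact Int.natCast_nonneg _

@[simp] theorem ofMS_zero : ofMS (0 : Multiset (Place K F)) = 0 := by
  classical
  ext v
  rw [ofMS_apply, Multiset.count_zero]
  rfl

theorem ofMS_add (E E' : Multiset (Place K F)) : ofMS (E + E') = ofMS E + ofMS E' := by
  classical
  ext v
  rw [Finsupp.add_apply, ofMS_apply, ofMS_apply, ofMS_apply, Multiset.count_add]
  push_cast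
  rfl

theorem ofMS_singleton (v : Place K F) : ofMS {v} = pt v := by
  classical
  ext w
  rw [ofMS_apply, Multiset.count_singleton, Finsupp.single_apply]
  by_cases h : v = w
  · rw [if_pos h, if_pos h.symm]; rfl
  · rw [if_neg h, if_neg (Ne.symm h)]; rfl

theorem ofMS_cons (v : Place K F) (E : Multiset (Place K F)) : ofMS (v ::ₘ E) = pt v + ofMS E := by
  rw [← Multiset.singleton_add, ofMS_add, ofMS_singleton]

theorem ofMS_replicate (n : ℕ) (v : Place K F) :
    ofMS (Multiset.replicate n v) = Finsupp.single v (n : ℤ) := by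
  classical
  ext w
  rw [ofMS_apply, Multiset.count_replicate, Finsupp.single_apply]
  by_cases h : v = w
  · rw [if_pos h, if_pos h]
  · rw [if_neg h, if_neg h]; rfl

theorem toMS_ofMS (E : Multiset (Place K F)) : toMS (ofMS E) = E := by
  classical
  ext v
  rw [count_toMS, ofMS_apply, Int.toNat_natCast]

theorem ofMS_toMS {D : Divisor K F} (hD : Eff D) : ofMS (toMS D) = D := by
  classical
  ext v
  rw [ofMS_apply, count_toMS, Int.toNat_of_nonneg (hD v)]

theorem ofMS_injective : Function.Injective (ofMS (K := K) (F := F)) := by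
  intro E E' h
  rw [← toMS_ofMS E, h, toMS_ofMS]

theorem le_iff_ofMS_le (E E' : Multiset (Place K F)) : E ≤ E' ↔ ∀ v, ofMS E v ≤ ofMS E' v := by
  classical
  rw [Multiset.le_iff_count]
  refine forall_congr' fun v => ?_
  rw [ofMS_apply, ofMS_apply, Nat.cast_le]

theorem toMS_add {D D' : Divisor K F} (hD : Eff D) (hD' : Eff D') :
    toMS (D + D') = toMS D + toMS D' := by
  classical
  ext v
  rw [Multiset.count_add, count_toMS, count_toMS, count_toMS, Finsupp.add_apply,
    Int.toNat_add (hD v) (hD' v)]

/-- semilinear automorphisms -/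
theorem ofMS_map_smul (g : SemilinearAut K F) (E : Multiset (Place K F)) :
    ofMS (E.map fun v => g • v) = g • ofMS E := by
  classical
  ext w
  rw [SemilinearAut.divisor_smul_apply, ofMS_apply, ofMS_apply]
  have h1 : w = g • (g⁻¹ • w) := (smul_inv_smul g w).symm
  conv_lhs => rw [h1]
  rw [Multiset.count_map_eq_count' (fun v => g • v) E (MulAction.injective g)]

theorem toMS_smul (g : SemilinearAut K F) (D : Divisor K F) :
    toMS (g • D) = (toMS D).map fun v => g • v := by
  classical
  ext w
  have h1 : w = g • (g⁻¹ • w) := (smul_inv_smul g w).symm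
  rw [count_toMS, SemilinearAut.divisor_smul_apply]
  conv_rhs => rw [h1]
  rw [Multiset.count_map_eq_count' (fun v => g • v) _ (MulAction.injective g), count_toMS]

theorem degree_ofMS [IsAlgClosed K] (h : IsFF1 K F) (E : Multiset (Place K F)) :
    Divisor.degree (ofMS E) = Multiset.card E := by
  induction E using Multiset.induction_on with
  | empty => simp
  | cons v E ih =>
    rw [ofMS_cons, map_add, ih, Divisor.degree_single, deg_eq_one h v, Multiset.card_cons]
    push_cast
    ring

theorem card_toMS [IsAlgClosed K] (h : IsFF1 K F) {D : Divisor K F} (hD : Eff D) :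
    (Multiset.card (toMS D) : ℤ) = Divisor.degree D := by
  rw [← degree_ofMS h, ofMS_toMS hD]

end Fermat.Agent.S17.GEO
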