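import Fermat.Agent.S17.GEO.Descent
import Fermat.Agent.S17.GEO.Dvs
import Fermat.Agent.S17.GEO.MS

set_option autoImplicit false

/-!
# S17 / GEO : rational bases of `V m = L(m o)`, coordinates, structure constants
-/

namespace Fermat.Agent.S17.GEO

open AlgebraicCurve Fermat.Agent.S24 Fermat.Agent.RL HL

namespace RatCurve

variable (R : RatCurve)

theorem smul_smul_eq (σ : GQ) (c : Qb) (f : R.F) : R.ρ σ • (c • f) = σ c • (R.ρ σ • f) := by
  rw [Algebra.smul_def, Algebra.smul_def, smul_mul', SemilinearAut.smul_algebraMap, R.base]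

theorem degree_mo (m : ℕ) : Divisor.degree (R.mo m) = m := by
  rw [mo, Divisor.degree_single, deg_eq_one R.ff1]
  simp

theorem mo_add (m m' : ℕ) : R.mo (m + m') = R.mo m + R.mo m' := by
  rw [mo, mo, mo, ← Finsupp.single_add]
  push_cast
  rfl

theorem smul_mo (σ : GQ) (m : ℕ) : R.ρ σ • R.mo m = R.mo m := by
  rw [mo, SemilinearAut.smul_single, R.fix_o]

/-- Riemann's theorem with the natural number constant `c0`. -/
theorem riemann (D : Divisor Qb R.F) (hD : (R.c0 : ℤ) ≤ Divisor.degree D) :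
    (ell D : ℤ) = Divisor.degree D + 1 - R.g := by
  refine (riemann_eq R.ff1).choose_spec D ?_
  have := Int.self_le_toNat (riemann_eq R.ff1).choose
  exact this.trans hD

theorem d_eq (m : ℕ) (hm : R.c0 ≤ m) : R.d m + R.g = m + 1 := by
  have h1 := R.riemann (R.mo m) (by rw [R.degree_mo]; exact_mod_cast hm)
  rw [R.degree_mo] at h1
  have h2 : (R.d m : ℤ) = (m : ℤ) + 1 - R.g := h1
  omega

/-- `V m` is stable under Galois (`smul_mem_LSpace`, `smul_mo`) and finite dimensional: `exists_invariant_basis` with `act σ = (ρ σ • ·)`. -/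
theorem exists_rat_basis (m : ℕ) : ∃ b : Fin (R.d m) → R.F, (∀ i, R.IsInv (b i)) ∧
    LinearIndependent Qb b ∧ Submodule.span Qb (Set.range b) = R.Vs m := by
  haveI : FiniteDimensional Qb (R.Vs m) := finiteDimensional_LSpace R.ff1 (R.mo m)
  obtain ⟨b, hb, hli, hsp⟩ := exists_invariant_basis
    (fun σ => DistribSMul.toAddMonoidHom R.F (R.ρ σ)) (fun σ c x => R.smul_smul_eq σ c x)
    R.span (R.Vs m) (fun σ x hx => by
      have := smul_mem_LSpace (R.ρ σ) hx
      rwa [R.smul_mo] at this)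
  exact ⟨b, fun i σ => hb i σ, hli, hsp⟩

/-- the chosen rational basis of `V m` -/
noncomputable def b (m : ℕ) : Fin (R.d m) → R.F := (R.exists_rat_basis m).choose

theorem b_inv (m : ℕ) (i : Fin (R.d m)) : R.IsInv (R.b m i) :=
  (R.exists_rat_basis m).choose_spec.1 i

theorem b_indep (m : ℕ) : LinearIndependent Qb (R.b m) :=
  (R.exists_rat_basis m).choose_spec.2.1

theorem span_b (m : ℕ) : Submodule.span Qb (Set.range (R.b m)) = R.Vs m :=
  (R.exists_rat_basis m).choose_spec.2.2

/-- coordinates `↦` function -/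
noncomputable def ev (m : ℕ) : (Fin (R.d m) → Qb) →ₗ[Qb] R.F :=
  Fintype.linearCombination Qb (R.b m)

theorem ev_apply (m : ℕ) (s : Fin (R.d m) → Qb) : R.ev m s = ∑ i, s i • R.b m i := by
  rw [ev, Fintype.linearCombination_apply]

theorem ev_injective (m : ℕ) : Function.Injective (R.ev m) :=
  (R.b_indep m).fintypeLinearCombination_injective

theorem range_ev (m : ℕ) : LinearMap.range (R.ev m) = R.Vs m := by
  rw [ev, Fintype.range_linearCombination, R.span_b]

theorem ev_mem (m : ℕ) (s : Fin (R.d m) → Qb) : R.ev m s ∈ R.Vs m := by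
  rw [← R.range_ev m]; exact ⟨s, rfl⟩

theorem ev_eq_zero_iff (m : ℕ) (s : Fin (R.d m) → Qb) : R.ev m s = 0 ↔ s = 0 :=
  map_eq_zero_iff _ (R.ev_injective m)

/-- Galois acts on coordinates coefficientwise. -/
theorem smul_ev (σ : GQ) (m : ℕ) (s : Fin (R.d m) → Qb) :
    R.ρ σ • R.ev m s = R.ev m (fun i => σ (s i)) := by
  rw [ev_apply, ev_apply, Finset.smul_sum]
  refine Finset.sum_congr rfl fun i _ => ?_
  rw [R.smul_smul_eq, R.b_inv m i σ]

/-- an invariant element of `V m` has rational coordinates (`coord_rational`). -/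
theorem exists_rat_coord (m : ℕ) (f : R.F) (hf : f ∈ R.Vs m) (hinv : R.IsInv f) :
    ∃ s : Fin (R.d m) → ℚ, R.ev m (cst s) = f := by
  rw [← R.range_ev m] at hf
  obtain ⟨c, rfl⟩ := hf
  have h1 : ∀ i, c i ∈ Set.range (algebraMap ℚ Qb) := fun i =>
    coord_rational (fun σ => DistribSMul.toAddMonoidHom R.F (R.ρ σ))
      (fun σ c x => R.smul_smul_eq σ c x) (R.b m) (fun i σ => R.b_inv m i σ) (R.b_indep m) c
      (fun σ => by
        have := hinv σ
        rw [ev_apply] at this
        exact this) i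
  choose s hs using h1
  refine ⟨s, ?_⟩
  congr 1
  funext i
  rw [← hs i]
  rfl

theorem isInv_ev_cst (m : ℕ) (s : Fin (R.d m) → ℚ) : R.IsInv (R.ev m (cst s)) := by
  intro σ
  rw [R.smul_ev]
  congr 1
  funext i
  exact map_ratCast σ (s i)

theorem basis_mul_mem {m m' : ℕ} {f f' : R.F} (hf : f ∈ R.Vs m) (hf' : f' ∈ R.Vs m') :
    f * f' ∈ R.Vs (m + m') := by
  rcases hf with rfl | hf
  · rw [zero_mul]; exact zero_mem _
  rcases hf' with rfl | hf'
  · rw [mul_zero]; exact zero_mem _
  by_cases h0 : f = 0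
  · rw [h0, zero_mul]; exact zero_mem _
  by_cases h0' : f' = 0
  · rw [h0', mul_zero]; exact zero_mem _
  right
  intro v
  rw [v.ord_mul h0 h0', R.mo_add, Finsupp.add_apply]
  have := hf v
  have := hf' v
  omega

theorem b_mem (m : ℕ) (i : Fin (R.d m)) : R.b m i ∈ R.Vs m := by
  rw [← R.span_b m]
  exact Submodule.subset_span ⟨i, rfl⟩

/-- rational structure constants: `b m i * b m' j` is an invariant element of `V (m + m')`. -/
theorem exists_tab (m m' : ℕ) : ∃ T : Tab (R.d m) (R.d m') (R.d (m + m')),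
    ∀ i j, R.b m i * R.b m' j = ∑ l, ((T i j l : ℚ) : Qb) • R.b (m + m') l := by
  have h1 : ∀ i j, ∃ s : Fin (R.d (m + m')) → ℚ, R.ev (m + m') (cst s) = R.b m i * R.b m' j := by
    intro i j
    refine R.exists_rat_coord (m + m') _ (R.basis_mul_mem (R.b_mem m i) (R.b_mem m' j)) ?_
    intro σ
    rw [smul_mul', R.b_inv m i σ, R.b_inv m' j σ]
  choose T hT using h1
  refine ⟨T, fun i j => ?_⟩
  rw [← hT i j, ev_apply]
  rfl

noncomputable def T (m m' : ℕ) : Tab (R.d m) (R.d m') (R.d (m + m')) := (R.exists_tab m m').choose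

theorem b_mul (m m' : ℕ) (i : Fin (R.d m)) (j : Fin (R.d m')) :
    R.b m i * R.b m' j = ∑ l, ((R.T m m' i j l : ℚ) : Qb) • R.b (m + m') l :=
  (R.exists_tab m m').choose_spec i j

/-- the table computes the product of functions. -/
theorem ev_mul (m m' : ℕ) (s : Fin (R.d m) → Qb) (s' : Fin (R.d m') → Qb) :
    R.ev (m + m') ((R.T m m').mul s s') = R.ev m s * R.ev m' s' := by
  rw [ev_apply, ev_apply, ev_apply, Finset.sum_mul_sum]
  simp only [Tab.mul, Finset.sum_smul]
  rw [Finset.sum_comm]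
  refine Finset.sum_congr rfl fun i _ => ?_
  rw [Finset.sum_comm]
  refine Finset.sum_congr rfl fun j _ => ?_
  rw [smul_mul_smul_comm, R.b_mul, Finset.smul_sum]
  refine Finset.sum_congr rfl fun l _ => ?_
  rw [smul_smul]
  congr 1
  ring

/-- the constant function `1` -/
theorem exists_one (m : ℕ) : ∃ s : Fin (R.d m) → ℚ, R.ev m (cst s) = 1 := by
  refine R.exists_rat_coord m 1 ?_ fun σ => smul_one _
  have h1 : Eff (R.mo m) := by
    intro v
    classical
    rw [mo, Finsupp.single_apply]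
    split_ifs <;> simp
  have := algebraMap_mem_LSpace h1 (1 : Qb)
  rwa [map_one] at this

noncomputable def one (m : ℕ) : Fin (R.d m) → ℚ := (R.exists_one m).choose

theorem ev_one (m : ℕ) : R.ev m (cst (R.one m)) = 1 := (R.exists_one m).choose_spec

end RatCurve

end Fermat.Agent.S17.GEO
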