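import Fermat.Agent.S17.GEO.Basis
import Fermat.Agent.S17.GEO.AbsUS

set_option autoImplicit false

/-!
# S17 / GEO : `HypUS` for the tables of a rational curve
-/

namespace Fermat.Agent.S17.GEO

open AlgebraicCurve Fermat.Agent.S24 Fermat.Agent.RL HL

namespace RatCurve

variable (R : RatCurve)

/-- `ev` transports `Tab.prod` to the product of subspaces of `F`. -/
theorem map_prod (m m' : ℕ) (A : Submodule Qb (Fin (R.d m) → Qb))
    (B : Submodule Qb (Fin (R.d m') → Qb)) :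
    ((R.T m m').prod A B).map (R.ev (m + m')) = A.map (R.ev m) * B.map (R.ev m') := by
  rw [Tab.prod, Submodule.map_span, Submodule.mul_eq_span_mul_set]
  congr 1
  ext x
  constructor
  · rintro ⟨_, ⟨a, ha, b, hb, rfl⟩, rfl⟩
    rw [R.ev_mul]
    exact Set.mul_mem_mul ⟨a, ha, rfl⟩ ⟨b, hb, rfl⟩
  · rintro ⟨_, ⟨a, ha, rfl⟩, _, ⟨b, hb, rfl⟩, rfl⟩
    exact ⟨_, ⟨a, ha, b, hb, rfl⟩, R.ev_mul m m' a b⟩

theorem finrank_map_ev (m : ℕ) (A : Submodule Qb (Fin (R.d m) → Qb)) :
    Module.finrank Qb (A.map (R.ev m)) = Module.finrank Qb A :=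
  (Submodule.equivMapOfInjective _ (R.ev_injective m) A).finrank_eq.symm

theorem map_top_ev (m : ℕ) : (⊤ : Submodule Qb (Fin (R.d m) → Qb)).map (R.ev m) = R.Vs m := by
  rw [Submodule.map_top, R.range_ev]

/-- `absUS` transported by `ev`. -/
theorem hypUS (m e m' e' j j' r ρ r' ρ' r'' : ℕ) (h1 : e + R.g + R.c0 ≤ m) (h2 : m + R.c0 ≤ j)
    (h1' : e' + R.g + R.c0 ≤ m') (h2' : m' + R.c0 ≤ j') (h3 : m + e' + R.c0 ≤ m' + e)
    (hr : r + e = R.d m) (hρ : ρ + e = R.d (j + m)) (hr' : r' + e' = R.d m')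
    (hρ' : ρ' + e' = R.d (j' + m')) (hr'' : r'' + e + e' = R.d (m + m')) :
    HypUS (R.T j m) (R.T j' m') (R.T m m') r ρ r' ρ' r'' := by
  intro U U' hU hU' hUρ hUρ'
  have key := absUS R.ff1 R.c0 R.riemann R.o m e j m' e' j' h1 h2 h1' h2' h3
    (U.map (R.ev m)) (U'.map (R.ev m'))
    (by
      have := Submodule.map_mono (f := R.ev m) (le_top : U ≤ ⊤)
      rwa [R.map_top_ev] at this)
    (by
      have := Submodule.map_mono (f := R.ev m') (le_top : U' ≤ ⊤)
      rwa [R.map_top_ev] at this)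
    (by rw [R.finrank_map_ev, hU]; exact hr)
    (by rw [R.finrank_map_ev, hU']; exact hr')
    (by
      have e1 : (LSpace (Finsupp.single R.o (j : ℤ)) * U.map (R.ev m) : Submodule Qb R.F) =
          ((R.T j m).prod ⊤ U).map (R.ev (j + m)) := by
        rw [R.map_prod, R.map_top_ev]
        rfl
      rw [e1, R.finrank_map_ev]
      have : ell (Finsupp.single R.o ((j + m : ℕ) : ℤ) : Divisor Qb R.F) = R.d (j + m) := rfl
      omega)
    (by
      have e1 : (LSpace (Finsupp.single R.o (j' : ℤ)) * U'.map (R.ev m') : Submodule Qb R.F) =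
          ((R.T j' m').prod ⊤ U').map (R.ev (j' + m')) := by
        rw [R.map_prod, R.map_top_ev]
        rfl
      rw [e1, R.finrank_map_ev]
      have : ell (Finsupp.single R.o ((j' + m' : ℕ) : ℤ) : Divisor Qb R.F) = R.d (j' + m') := rfl
      omega)
  rw [← R.map_prod, R.finrank_map_ev] at key
  have : ell (Finsupp.single R.o ((m + m' : ℕ) : ℤ) : Divisor Qb R.F) = R.d (m + m') := rfl
  omega

end RatCurve

end Fermat.Agent.S17.GEO
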