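import Fermat.Agent.S17.GEO.Rat
import Fermat.Agent.S17.GEO.HypUS

set_option autoImplicit false

/-!
# S17 / GEO : the curve datum of a rational curve
-/

namespace Fermat.Agent.S17.GEO

open AlgebraicCurve Fermat.Agent.S24 Fermat.Agent.RL HL

/-- the abstract datum attached to a rational curve -/
noncomputable def RatCurve.datum (R : RatCurve) : CurveDatum where
  g := R.g
  c0 := R.c0
  d := R.d
  d_eq := R.d_eq
  T := R.T
  Pt := Place Qb R.F
  Z := R.Z
  card_Z := R.card_Z
  Z_smul := R.Z_smul
  mul_ne_zero := R.mul_ne_zero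
  Z_mul := R.Z_mul
  U := R.U
  mem_U := R.mem_U
  finrank_U := R.finrank_U
  exists_div := R.exists_div
  eq_smul_of_Z_eq := R.eq_smul_of_Z_eq
  hypUS := R.hypUS
  inf := R.o
  one := R.one
  one_ne_zero := R.one_ne_zero
  Z_one := R.Z_one
  IsRat := R.IsRat
  isRat_add := R.isRat_add
  isRat_of_add := R.isRat_of_add
  isRat_Z := R.isRat_Z
  definedOver_rat := R.definedOver_rat

end Fermat.Agent.S17.GEO
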