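import Fermat.Agent.RL.Equivariant
import Fermat.Agent.S17.Datum

set_option autoImplicit false

/-!
# S17 / GEO : a curve over `Qb` with a rational structure and a rational base point -- definitions
-/

namespace Fermat.Agent.S17.GEO

open AlgebraicCurve Fermat.Agent.S24 Fermat.Agent.RL HL

abbrev GQ : Type := Qb ≃ₐ[ℚ] Qb

/-- A function field `F / Qb` with a semilinear action of `GQ`, a fixed place `o`, and such that `F` is spanned by invariants. -/
structure RatCurve where
  F : Type
  [fF : Field F]
  [aF : Algebra Qb F]
  ff1 : IsFF1 Qb F
  o : Place Qb F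
  ρ : GQ →* SemilinearAut Qb F
  base : ∀ (σ : GQ) (a : Qb), SemilinearAut.baseAut (ρ σ) a = σ a
  fix_o : ∀ σ : GQ, ρ σ • o = o
  span : ∀ f : F, f ∈ Submodule.span Qb {f : F | ∀ σ : GQ, ρ σ • f = f}

attribute [instance] RatCurve.fF RatCurve.aF

section multiset

variable {K F : Type} [Field K] [Field F] [Algebra K F]

/-- the multiset of an effective divisor (negative coefficients are truncated). -/
noncomputable def toMS (D : Divisor K F) : Multiset (Place K F) :=
  Finsupp.toMultiset (D.mapRange Int.toNat rfl)

open Classical in
/-- the divisor of a multiset of places. -/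
noncomputable def ofMS (E : Multiset (Place K F)) : Divisor K F :=
  (Multiset.toFinsupp E).mapRange (fun n : ℕ => (n : ℤ)) rfl

end multiset

section dvs

variable {K F : Type} [Field K] [Field F] [Algebra K F] [IsAlgClosed K] [CharZero K]

open Classical in
/-- the divisor of a function (`0` for `f = 0`). -/
noncomputable def dvs (h : IsFF1 K F) (f : F) : Divisor K F :=
  if hf : f ≠ 0 then (exists_div h hf).choose else 0

end dvs

namespace RatCurve

variable (R : RatCurve)

/-- the divisor `m · o` -/
noncomputable def mo (m : ℕ) : Divisor Qb R.F := Finsupp.single R.o (m : ℤ)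

/-- `V m = L(m o)` -/
noncomputable def Vs (m : ℕ) : Submodule Qb R.F := LSpace (R.mo m)

noncomputable def d (m : ℕ) : ℕ := ell (R.mo m)

/-- invariant elements -/
def IsInv (f : R.F) : Prop := ∀ σ : GQ, R.ρ σ • f = f

noncomputable def g : ℕ := genusR R.ff1

/-- a natural number from which Riemann's theorem is an equality -/
noncomputable def c0 : ℕ := (riemann_eq R.ff1).choose.toNat

end RatCurve

end Fermat.Agent.S17.GEO
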