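import Fermat.Agent.S17.HL.Defs

set_option autoImplicit false

/-!
# S17 / GEO : Galois descent for subspaces (abstract, Mathlib only)
-/

namespace Fermat.Agent.S17.GEO

open HL

/-- an element of `Qb` fixed by the whole Galois group is rational. -/
theorem mem_range_of_fixed (a : Qb) (ha : ∀ σ : Qb ≃ₐ[ℚ] Qb, σ a = a) :
    a ∈ Set.range (algebraMap ℚ Qb) := by
  have h1 : Algebra.IsAlgebraic ℚ Qb := AlgebraicClosure.isAlgebraic ℚ
  have h2 : IsAlgClosure ℚ Qb := ⟨inferInstance, h1⟩
  have h3 : IsGalois ℚ Qb := {}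
  exact (InfiniteGalois.mem_range_algebraMap_iff_fixed a).2 ha

/-- the action on a linear combination of invariants. -/
theorem descent_act_lc {M : Type} [AddCommGroup M] [Module Qb M] (act : (Qb ≃ₐ[ℚ] Qb) → M →+ M)
    (hsl : ∀ σ (c : Qb) (x : M), act σ (c • x) = σ c • act σ x)
    (l : {y : M | ∀ σ, act σ y = y} →₀ Qb) (σ : Qb ≃ₐ[ℚ] Qb) :
    act σ (Finsupp.linearCombination Qb Subtype.val l) =
      Finsupp.linearCombination Qb Subtype.val (l.mapRange σ (map_zero σ)) := by
  rw [Finsupp.linearCombination_apply, Finsupp.linearCombination_apply,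
    Finsupp.sum_mapRange_index (by simp), Finsupp.sum, map_sum]
  exact Finset.sum_congr rfl fun y _ => by rw [hsl, y.2 σ]

theorem descent_aux {M : Type} [AddCommGroup M] [Module Qb M] (act : (Qb ≃ₐ[ℚ] Qb) → M →+ M)
    (hsl : ∀ σ (c : Qb) (x : M), act σ (c • x) = σ c • act σ x)
    (V : Submodule Qb M) (hV : ∀ σ, ∀ x ∈ V, act σ x ∈ V) (n : ℕ) :
    ∀ l : {y : M | ∀ σ, act σ y = y} →₀ Qb, l.support.card ≤ n →
      Finsupp.linearCombination Qb Subtype.val l ∈ V →
      Finsupp.linearCombination Qb Subtype.val l ∈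
        Submodule.span Qb {y : M | y ∈ V ∧ ∀ σ, act σ y = y} := by
  classical
  induction n with
  | zero =>
    intro l hl _
    have : l = 0 := by
      rw [← Finsupp.support_eq_empty, ← Finset.card_eq_zero]
      omega
    rw [this, map_zero]
    exact zero_mem _
  | succ n ih =>
    intro l hl hf
    by_cases h0 : l = 0
    · rw [h0, map_zero]
      exact zero_mem _
    obtain ⟨y0, hy0⟩ := Finsupp.support_nonempty_iff.2 h0
    have hc0 : l y0 ≠ 0 := Finsupp.mem_support_iff.1 hy0
    obtain ⟨c0, hc0def⟩ : ∃ c0, c0 = l y0 := ⟨_, rfl⟩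
    rw [← hc0def] at hc0
    obtain ⟨l1, hl1def⟩ : ∃ l1, l1 = c0⁻¹ • l := ⟨_, rfl⟩
    have hl1 : l1 y0 = 1 := by
      rw [hl1def, Finsupp.smul_apply, smul_eq_mul, ← hc0def, inv_mul_cancel₀ hc0]
    have hsupp1 : l1.support ⊆ l.support := by
      rw [hl1def]
      exact Finsupp.support_smul
    have hf1 : Finsupp.linearCombination Qb Subtype.val l1 ∈ V := by
      rw [hl1def, map_smul]
      exact V.smul_mem _ hf
    suffices h : Finsupp.linearCombination Qb Subtype.val l1 ∈
        Submodule.span Qb {y : M | y ∈ V ∧ ∀ σ, act σ y = y} by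
      have e : l = c0 • l1 := by
        rw [hl1def, smul_smul, mul_inv_cancel₀ hc0, one_smul]
      rw [e, map_smul]
      exact Submodule.smul_mem _ _ h
    by_cases hA : ∀ (σ : Qb ≃ₐ[ℚ] Qb) y, σ (l1 y) = l1 y
    · apply Submodule.subset_span
      refine ⟨hf1, fun σ => ?_⟩
      rw [descent_act_lc act hsl]
      congr 1
      ext y
      rw [Finsupp.mapRange_apply]
      exact hA σ y
    · push Not at hA
      obtain ⟨σ, k, hk⟩ := hA
      obtain ⟨m, hm⟩ : ∃ m, m = l1.mapRange σ (map_zero σ) - l1 := ⟨_, rfl⟩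
      have hmy : ∀ y, m y = σ (l1 y) - l1 y := by
        intro y
        rw [hm, Finsupp.sub_apply, Finsupp.mapRange_apply]
      have hmV : Finsupp.linearCombination Qb Subtype.val m ∈ V := by
        rw [hm, map_sub, ← descent_act_lc act hsl]
        exact V.sub_mem (hV σ _ hf1) hf1
      have hmsupp : m.support ⊆ l.support.erase y0 := by
        intro y hy
        rw [Finsupp.mem_support_iff, hmy] at hy
        rw [Finset.mem_erase]
        refine ⟨?_, hsupp1 ?_⟩
        · rintro rfl
          rw [hl1, map_one, sub_self] at hy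
          exact hy rfl
        · rw [Finsupp.mem_support_iff]
          intro h
          rw [h, map_zero, sub_self] at hy
          exact hy rfl
      have hmcard : m.support.card ≤ n := by
        have h1 := Finset.card_le_card hmsupp
        rw [Finset.card_erase_of_mem hy0] at h1
        omega
      have hm' := ih m hmcard hmV
      have hmk : m k ≠ 0 := by
        rw [hmy]
        exact sub_ne_zero.2 hk
      have hk1 : l1 k ≠ 0 := by
        intro h
        rw [h, map_zero] at hk
        exact hk rfl
      obtain ⟨l2, hl2⟩ : ∃ l2, l2 = l1 - (l1 k / m k) • m := ⟨_, rfl⟩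
      have hl2V : Finsupp.linearCombination Qb Subtype.val l2 ∈ V := by
        rw [hl2, map_sub, map_smul]
        exact V.sub_mem hf1 (V.smul_mem _ hmV)
      have hl2supp : l2.support ⊆ l.support.erase k := by
        intro y hy
        rw [Finsupp.mem_support_iff, hl2, Finsupp.sub_apply, Finsupp.smul_apply, smul_eq_mul] at hy
        rw [Finset.mem_erase]
        refine ⟨?_, hsupp1 ?_⟩
        · rintro rfl
          rw [div_mul_cancel₀ _ hmk, sub_self] at hy
          exact hy rfl
        · rw [Finsupp.mem_support_iff]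
          intro h
          rw [hmy y, h, map_zero, sub_self, mul_zero, sub_self] at hy
          exact hy rfl
      have hl2card : l2.support.card ≤ n := by
        have h1 := Finset.card_le_card hl2supp
        rw [Finset.card_erase_of_mem (hsupp1 (Finsupp.mem_support_iff.2 hk1))] at h1
        omega
      have hl2' := ih l2 hl2card hl2V
      have e : l1 = l2 + (l1 k / m k) • m := by
        rw [hl2, sub_add_cancel]
      rw [e, map_add, map_smul]
      exact add_mem hl2' (Submodule.smul_mem _ _ hm')

/-- **Galois descent.**  `M` a `Qb`-vector space with a semilinear action of `GQ`, spanned by its invariants; every stable subspace `V` is spanned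
by its invariants.  Proof: suppose not; among the `f ∈ V` not in `V' = span (V ∩ M^G)` choose one with an expression
`f = ∑_{i<n} c i • f i`, `f i` invariant, of minimal length `n`; then the `c i ≠ 0`, WLOG `c 0 = 1` (scale).  If all `c i` are rational,
`f` is invariant: contradiction.  Otherwise `σ (c k) ≠ c k` for some `σ, k`; `σ f - f ∈ V` has length `< n` (the term `i = 0` disappears), so it is in `V'`;
`f - c k / (σ (c k) - c k) • (σ f - f)` has length `< n` (the term `k` disappears), so it is in `V'`; hence `f ∈ V'`. -/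
theorem descent {M : Type} [AddCommGroup M] [Module Qb M] (act : (Qb ≃ₐ[ℚ] Qb) → M →+ M)
    (hsl : ∀ σ (c : Qb) (x : M), act σ (c • x) = σ c • act σ x)
    (hspan : ∀ x : M, x ∈ Submodule.span Qb {y : M | ∀ σ, act σ y = y})
    (V : Submodule Qb M) (hV : ∀ σ, ∀ x ∈ V, act σ x ∈ V) :
    V = Submodule.span Qb {y : M | y ∈ V ∧ ∀ σ, act σ y = y} := by
  apply le_antisymm
  · intro f hf
    obtain ⟨l, rfl⟩ := (Finsupp.mem_span_iff_linearCombination Qb _ f).1 (hspan f)
    exact descent_aux act hsl V hV _ l le_rfl hf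
  · rw [Submodule.span_le]
    exact fun y hy => hy.1

/-- a finite dimensional stable subspace has a basis of invariants (extract a basis from the spanning set). -/
theorem exists_invariant_basis {M : Type} [AddCommGroup M] [Module Qb M]
    (act : (Qb ≃ₐ[ℚ] Qb) → M →+ M)
    (hsl : ∀ σ (c : Qb) (x : M), act σ (c • x) = σ c • act σ x)
    (hspan : ∀ x : M, x ∈ Submodule.span Qb {y : M | ∀ σ, act σ y = y})
    (V : Submodule Qb M) [FiniteDimensional Qb V] (hV : ∀ σ, ∀ x ∈ V, act σ x ∈ V) :
    ∃ b : Fin (Module.finrank Qb V) → M, (∀ i σ, act σ (b i) = b i) ∧ LinearIndependent Qb b ∧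
      Submodule.span Qb (Set.range b) = V := by
  classical
  have hd := descent act hsl hspan V hV
  obtain ⟨B, hBs, hBspan, hBli⟩ :=
    exists_linearIndependent Qb {y : M | y ∈ V ∧ ∀ σ, act σ y = y}
  rw [← hd] at hBspan
  have hli' : LinearIndependent Qb (fun x : B => (⟨x.1, (hBs x.2).1⟩ : V)) :=
    LinearIndependent.of_comp V.subtype hBli
  have hfin : Finite B := hli'.finite
  have := Fintype.ofFinite B
  have hcard : Fintype.card B = Module.finrank Qb V := by
    have h1 := finrank_span_eq_card hBli
    rw [Subtype.range_coe, hBspan] at h1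
    exact h1.symm
  let e : Fin (Module.finrank Qb V) ≃ B := (Fintype.equivFinOfCardEq hcard).symm
  refine ⟨fun i => (e i).1, fun i σ => (hBs (e i).2).2 σ, hBli.comp e e.injective, ?_⟩
  have : Set.range (fun i => (e i).1) = B := by
    ext y
    constructor
    · rintro ⟨i, rfl⟩
      exact (e i).2
    · intro hy
      exact ⟨e.symm ⟨y, hy⟩, by simp⟩
  rw [this, hBspan]

/-- coordinates of an invariant vector in an invariant independent family are rational. -/
theorem coord_rational {M : Type} [AddCommGroup M] [Module Qb M] (act : (Qb ≃ₐ[ℚ] Qb) → M →+ M)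
    (hsl : ∀ σ (c : Qb) (x : M), act σ (c • x) = σ c • act σ x) {n : ℕ} (b : Fin n → M)
    (hb : ∀ i σ, act σ (b i) = b i) (hli : LinearIndependent Qb b) (c : Fin n → Qb)
    (hinv : ∀ σ, act σ (∑ i, c i • b i) = ∑ i, c i • b i) (i : Fin n) :
    c i ∈ Set.range (algebraMap ℚ Qb) := by
  apply mem_range_of_fixed
  intro σ
  have h1 := hinv σ
  rw [map_sum] at h1
  have h2 : ∑ i, (σ (c i) - c i) • b i = 0 := by
    simp only [sub_smul, Finset.sum_sub_distrib]
    rw [sub_eq_zero, ← h1]
    exact Finset.sum_congr rfl fun j _ => by rw [hsl, hb]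
  exact sub_eq_zero.1 (Fintype.linearIndependent_iff.1 hli _ h2 i)

/-- **a subspace of `Qb ^ d` stable under the coordinatewise action is defined over `ℚ`.** -/
theorem definedOver_rat_of_stable {d : ℕ} (U : Submodule Qb (Fin d → Qb))
    (hU : ∀ σ : Qb ≃ₐ[ℚ] Qb, ∀ x ∈ U, (fun i => σ (x i)) ∈ U) :
    DefinedOver (algebraMap ℚ Qb) U := by
  classical
  let act : (Qb ≃ₐ[ℚ] Qb) → (Fin d → Qb) →+ (Fin d → Qb) := fun σ =>
    { toFun := fun x i => σ (x i)
      map_zero' := by ext i; simp
      map_add' := fun x y => by ext i; simp }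
  have hact : ∀ σ x i, act σ x i = σ (x i) := fun _ _ _ => rfl
  have hsl : ∀ σ (c : Qb) (x : Fin d → Qb), act σ (c • x) = σ c • act σ x := by
    intro σ c x
    ext i
    simp [hact]
  have hspan : ∀ x : Fin d → Qb, x ∈ Submodule.span Qb {y : Fin d → Qb | ∀ σ, act σ y = y} := by
    intro x
    rw [pi_eq_sum_univ x]
    refine Submodule.sum_mem _ fun i _ => Submodule.smul_mem _ _ (Submodule.subset_span ?_)
    intro σ
    ext j
    rw [hact]
    split_ifs <;> simp
  obtain ⟨b, hb, hli, hbspan⟩ := exists_invariant_basis act hsl hspan U (fun σ x hx => hU σ x hx)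
  have hrat : ∀ i k, ∃ s : ℚ, algebraMap ℚ Qb s = b i k := by
    intro i k
    apply mem_range_of_fixed
    intro σ
    have := congrFun (hb i σ) k
    rwa [hact] at this
  choose S hS using hrat
  have hSb : (fun i => (fun k => algebraMap ℚ Qb (S i k))) = b := by
    ext i k
    exact hS i k
  refine ⟨_, S, ?_, ?_⟩
  · rw [Fintype.linearIndependent_iff]
    intro g hg i
    have h1 : ∑ i, algebraMap ℚ Qb (g i) • b i = 0 := by
      ext k
      have h2 := congrArg (algebraMap ℚ Qb) (congrFun hg k)
      simp only [Finset.sum_apply, Pi.smul_apply, smul_eq_mul, map_sum, map_mul, Pi.zero_apply,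
        map_zero, hS] at h2 ⊢
      exact h2
    have h3 := Fintype.linearIndependent_iff.1 hli _ h1 i
    exact (map_eq_zero (algebraMap ℚ Qb)).1 h3
  · rw [hSb, hbspan]

end Fermat.Agent.S17.GEO
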