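import Fermat.Agent.S17.GEO.Datum
import Fermat.Agent.S17.GB.Main
import Fermat.Agent.RL.Reduced

set_option autoImplicit false

/-!
# S17 / GEO : the family of Galois stable divisors representing the rational points of the Jacobian
-/

namespace Fermat.Agent.S17.GEO

open AlgebraicCurve Fermat.Agent.S24 Fermat.Agent.RL HL

namespace RatCurve

variable (R : RatCurve)

/-- the group of Galois invariant classes -/
def Gam : AddSubgroup (Pic0 Qb R.F) where
  carrier := {x | ∀ σ : GQ, R.ρ σ • x = x}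
  zero_mem' := fun σ => smul_zero _
  add_mem' := fun {x y} hx hy σ => by rw [smul_add, hx σ, hy σ]
  neg_mem' := fun {x} hx σ => by rw [smul_neg, hx σ]

/-- the class of an effective divisor -/
noncomputable def cl (E : Multiset (Place Qb R.F)) : Pic0 Qb R.F := clsOf R.ff1 R.o (ofMS E)

theorem cl_add (E E' : Multiset (Place Qb R.F)) : R.cl (E + E') = R.cl E + R.cl E' := by
  rw [cl, cl, cl, ofMS_add, clsOf_add]

theorem family_clsOf_mo (n : ℕ) : clsOf R.ff1 R.o (R.mo n) = 0 := by
  unfold clsOf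
  rw [← Pic0.mk_zero]
  congr 1
  apply Subtype.ext
  show R.mo n - Divisor.degree (R.mo n) • pt R.o = 0
  rw [R.degree_mo, mo, Finsupp.smul_single, smul_eq_mul, mul_one, sub_self]

theorem family_clsOf_dvs (f : R.F) : clsOf R.ff1 R.o (dvs R.ff1 f) = 0 := by
  rw [← clsOf_zero R.ff1 R.o, clsOf_eq_iff, degree_dvs, map_zero, zero_smul, sub_zero, sub_zero]
  by_cases hf : f = 0
  · subst hf
    have : dvs R.ff1 (0 : R.F) = 0 := by
      ext v
      rw [dvs_apply]
      simp
    rw [this]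
    exact LinEq.refl 0
  · refine ⟨f⁻¹, inv_ne_zero hf, fun v => ?_⟩
    rw [dvs_apply, v.ord_inv]
    simp

theorem family_cl_Z (m : ℕ) (a : Fin (R.d m) → Qb) (ha : a ≠ 0) : R.cl (R.Z m a) = 0 := by
  rw [cl, R.ofMS_Z m a ha, clsOf_add, family_clsOf_dvs, family_clsOf_mo, add_zero]

theorem cl_replicate (n : ℕ) : R.cl (Multiset.replicate n R.o) = 0 := by
  rw [cl, ofMS_replicate]
  exact R.family_clsOf_mo n

/-- **equal classes and equal degrees ⟹ `LinEq` in the datum.**  `ofMS E' = ofMS E + div φ` (`clsOf_eq_iff`); `ℓ(m o - E) ≥ 1` (Riemann's inequality): take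
`f ≠ 0` in it, `a` its coordinates, `R' = Z a - E`; `a'` = the coordinates of `f φ ∈ L(m o - E')`, `Z a' = E' + R'`. -/
theorem linEq_of_cl_eq (m : ℕ) (E E' : Multiset (Place Qb R.F))
    (hcard : Multiset.card E = Multiset.card E') (hm : Multiset.card E + R.g ≤ m)
    (hcl : R.cl E = R.cl E') : R.datum.LinEq m E E' := by
  have hdeg : Divisor.degree (ofMS E) = Divisor.degree (ofMS E') := by
    rw [degree_ofMS R.ff1, degree_ofMS R.ff1, hcard]
  rw [cl, cl, clsOf_eq_iff, hdeg] at hcl
  have hlin := hcl.add_right (Divisor.degree (ofMS E') • pt R.o)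
  rw [sub_add_cancel, sub_add_cancel] at hlin
  obtain ⟨φ, hφ, hφv⟩ := hlin
  -- a section vanishing on `E`
  have h1 := riemann_ineq R.ff1 (R.mo m - ofMS E)
  rw [map_sub, R.degree_mo, degree_ofMS R.ff1] at h1
  have hg : (genusR R.ff1 : ℤ) = R.g := rfl
  have h2 : 0 < ell (R.mo m - ofMS E) := by
    have : (Multiset.card E : ℤ) + R.g ≤ m := by exact_mod_cast hm
    omega
  obtain ⟨f, hf, hf0⟩ := (ell_pos_iff R.ff1).1 h2
  have hfV : f ∈ R.Vs m := by
    refine LSpace_mono (fun v => ?_) hf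
    have := eff_ofMS E v
    rw [Finsupp.sub_apply]
    omega
  rw [← R.range_ev m] at hfV
  obtain ⟨a, rfl⟩ := hfV
  have ha : a ≠ 0 := by
    rintro rfl
    exact hf0 (map_zero _)
  have hle : E ≤ R.Z m a := by
    have h3 : a ∈ R.U m E := hf
    rcases (R.mem_U m E a).1 h3 with h4 | h4
    · exact absurd h4 ha
    · exact h4
  obtain ⟨R', hR'⟩ := Multiset.le_iff_exists_add.1 hle
  have hZ := R.ofMS_Z m a ha
  rw [hR', ofMS_add] at hZ
  -- the second section
  have hdiv : dvs R.ff1 (R.ev m a * φ) + R.mo m = ofMS (E' + R') := by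
    rw [dvs_mul R.ff1 hf0 hφ, ofMS_add]
    have h5 : ofMS E' = ofMS E + dvs R.ff1 φ := by
      ext v
      rw [hφv, Finsupp.add_apply, dvs_apply]
    rw [h5]
    have h6 : dvs R.ff1 (R.ev m a) + R.mo m = ofMS E + ofMS R' := hZ.symm
    calc dvs R.ff1 (R.ev m a) + dvs R.ff1 φ + R.mo m
        = (dvs R.ff1 (R.ev m a) + R.mo m) + dvs R.ff1 φ := by abel
      _ = ofMS E + dvs R.ff1 φ + ofMS R' := by rw [h6]; abel
  have hf'V : R.ev m a * φ ∈ R.Vs m := by
    right
    intro v
    have h7 := congrArg (fun D : Divisor Qb R.F => D v) hdiv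
    simp only [Finsupp.add_apply, dvs_apply] at h7
    rw [h7]
    exact eff_ofMS _ v
  rw [← R.range_ev m] at hf'V
  obtain ⟨a', ha'⟩ := hf'V
  have ha'0 : a' ≠ 0 := by
    rintro rfl
    rw [map_zero] at ha'
    exact _root_.mul_ne_zero hf0 hφ ha'.symm
  refine ⟨a, a', R', ha, ha'0, hR', ?_⟩
  show R.Z m a' = E' + R'
  rw [Z, ha', hdiv, toMS_ofMS]

/-- the converse. -/
theorem cl_eq_of_linEq (m : ℕ) (E E' : Multiset (Place Qb R.F)) (h : R.datum.LinEq m E E') :
    R.cl E = R.cl E' := by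
  obtain ⟨a, a', (R' : Multiset (Place Qb R.F)), ha, ha', h1, h2⟩ := h
  have e1 := R.family_cl_Z m a ha
  have e2 := R.family_cl_Z m a' ha'
  have h1' : R.Z m a = E + R' := h1
  have h2' : R.Z m a' = E' + R' := h2
  rw [h1', cl_add] at e1
  rw [h2', cl_add] at e2
  exact add_right_cancel (e1.trans e2.symm)

/-- the reduced divisor padded with `o` up to degree `g`. -/
noncomputable def Ediv (x : Pic0 Qb R.F) : Multiset (Place Qb R.F) :=
  toMS (red R.ff1 R.o x) +
    Multiset.replicate (R.g - Multiset.card (toMS (red R.ff1 R.o x))) R.o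

theorem card_Ediv (x : Pic0 Qb R.F) : Multiset.card (R.Ediv x) = R.g := by
  have h1 := card_toMS R.ff1 (isRed_red R.ff1 R.o x).eff
  have h2 := degree_red_le R.ff1 R.o x
  have hg : (genusR R.ff1 : ℤ) = R.g := rfl
  rw [Ediv, Multiset.card_add, Multiset.card_replicate]
  omega

theorem cl_Ediv (x : Pic0 Qb R.F) : R.cl (R.Ediv x) = x := by
  rw [Ediv, cl_add, cl_replicate, add_zero, cl, ofMS_toMS (isRed_red R.ff1 R.o x).eff, clsOf_red]

/-- `red_smul` + `fix_o`. -/
theorem isRat_Ediv (x : Pic0 Qb R.F) (hx : x ∈ R.Gam) : R.IsRat (R.Ediv x) := by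
  refine R.isRat_add _ _ (fun σ => ?_) (R.isRat_replicate _)
  rw [← toMS_smul, ← red_smul R.ff1 _ (R.fix_o σ), hx σ]

theorem family_add (x y : Pic0 Qb R.F) :
    R.datum.LinEq (3 * R.g + 1)
      (R.Ediv (x + y) + Multiset.replicate R.g R.o : Multiset (Place Qb R.F))
      (R.Ediv x + R.Ediv y : Multiset (Place Qb R.F)) := by
  refine R.linEq_of_cl_eq _ _ _ ?_ ?_ ?_
  · simp only [Multiset.card_add, Multiset.card_replicate, card_Ediv]
  · simp only [Multiset.card_add, Multiset.card_replicate, card_Ediv]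
    omega
  · rw [cl_add, cl_add, cl_Ediv, cl_Ediv, cl_Ediv, cl_replicate, add_zero]

theorem family_neg (x : Pic0 Qb R.F) :
    R.datum.LinEq (3 * R.g + 1) (R.Ediv x + R.Ediv (-x) : Multiset (Place Qb R.F))
      (Multiset.replicate (2 * R.g) R.o : Multiset (Place Qb R.F)) := by
  refine R.linEq_of_cl_eq _ _ _ ?_ ?_ ?_
  · simp only [Multiset.card_add, Multiset.card_replicate, card_Ediv]
    omega
  · simp only [Multiset.card_add, card_Ediv]
    omega
  · rw [cl_add, cl_Ediv, cl_Ediv, cl_replicate]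
    simp

theorem family_inj (m : ℕ) (x y : Pic0 Qb R.F) (h : R.datum.LinEq m (R.Ediv x) (R.Ediv y)) :
    x = y := by
  have := R.cl_eq_of_linEq m _ _ h
  rwa [cl_Ediv, cl_Ediv] at this

/-- **the family.** -/
noncomputable def family : DivFamily R.datum R.Gam R.g (3 * R.g + 1) where
  Ediv := fun x => R.Ediv x
  card := fun x => R.card_Ediv x
  rat := fun x => R.isRat_Ediv x x.2
  add := fun x y => R.family_add x y
  neg := fun x => R.family_neg x
  inj := fun m x y h => Subtype.ext (R.family_inj m x y h)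

/-- **Mordell-Weil from weak Mordell-Weil, for a rational curve.** -/
theorem fg_Gam (H : (nsmulAddMonoidHom (α := R.Gam) 2).range.FiniteIndex) : AddGroup.FG R.Gam :=
  fg_of_divFamily R.family (by omega) (by omega) H

end RatCurve

end Fermat.Agent.S17.GEO
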