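import Fermat.Agent.RL.Riemann

set_option autoImplicit false

/-!
# S17 / GEO : the base point free pencil trick (abstract, on top of RL)
-/

namespace Fermat.Agent.S17.GEO

open AlgebraicCurve Fermat.Agent.S24 Fermat.Agent.RL

variable {K F : Type} [Field K] [Field F] [Algebra K F]

theorem mul_mem_LSpace {D D' : Divisor K F} {f f' : F} (hf : f ∈ LSpace D) (hf' : f' ∈ LSpace D') :
    f * f' ∈ LSpace (D + D') := by
  rcases hf with rfl | hf
  · left; rw [zero_mul]
  rcases hf' with rfl | hf'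
  · left; rw [mul_zero]
  by_cases h0 : f = 0
  · left; rw [h0, zero_mul]
  by_cases h0' : f' = 0
  · left; rw [h0', mul_zero]
  right
  intro v
  have h1 := hf v
  have h2 := hf' v
  rw [v.ord_mul h0 h0', Finsupp.add_apply]
  omega

theorem LSpace_mul_le (D D' : Divisor K F) : LSpace D * LSpace D' ≤ LSpace (D + D') := by
  rw [Submodule.mul_le]
  exact fun f hf f' hf' => mul_mem_LSpace hf hf'

variable [IsAlgClosed K] [CharZero K] (h : IsFF1 K F)

include h

/-- the kernel of `(s0, s1) ↦ a0 s0 + a1 s1` on `L(D')²`: if `a0 s0 + a1 s1 = 0` then `s0 = a1 t`, `s1 = - a0 t` with `t ∈ L(D' - D)`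
(`t = s0 / a1`; `ord t ≥ -D' v - ord a1`, and `= ord s1 - ord a0 ≥ -D' v - ord a0`, so `ord t ≥ - D' v - min = -D' v + D v`). -/
theorem pencil_kernel {D D' : Divisor K F} {a0 a1 : F} (h0 : a0 ≠ 0) (h1 : a1 ≠ 0)
    (hmin : ∀ v : Place K F, min (v.ord a0) (v.ord a1) = - D v) {s0 s1 : F}
    (hs0 : s0 ∈ LSpace D') (hs1 : s1 ∈ LSpace D') (hz : a0 * s0 + a1 * s1 = 0) :
    ∃ t ∈ LSpace (D' - D), s0 = a1 * t ∧ s1 = - (a0 * t) := by
  have e1 : s1 = - (a0 * (s0 / a1)) := by
    have : a1 * s1 = - (a0 * s0) := by linear_combination hz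
    field_simp
    linear_combination this
  refine ⟨s0 / a1, ?_, by field_simp, e1⟩
  by_cases hs : s0 = 0
  · left; rw [hs, zero_div]
  have hs1' : s1 ≠ 0 := by
    rw [e1]
    exact neg_ne_zero.2 (mul_ne_zero h0 (div_ne_zero hs h1))
  right
  intro v
  have o1 : v.ord (s0 / a1) = v.ord s0 - v.ord a1 := ord_div v hs h1
  have o2 : v.ord s1 = v.ord a0 + v.ord (s0 / a1) := by
    conv_lhs => rw [e1]
    rw [ord_neg, v.ord_mul h0 (div_ne_zero hs h1)]
  have b0 : 0 ≤ v.ord s0 + D' v := by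
    rcases hs0 with h' | h'
    · exact absurd h' hs
    · exact h' v
  have b1 : 0 ≤ v.ord s1 + D' v := by
    rcases hs1 with h' | h'
    · exact absurd h' hs1'
    · exact h' v
  have hm := hmin v
  rw [Finsupp.sub_apply]
  rcases min_choice (v.ord a0) (v.ord a1) with hc | hc <;> rw [hc] at hm <;> omega

/-- **Base point free pencil trick.**  Rank-nullity for `Φ : L(D') × L(D') → L(D + D')`, `ker Φ ≃ L(D' - D)` (`pencil_kernel`; conversely `(a1 t, - a0 t)`
is in `L(D')²` for `t ∈ L(D' - D)`), `2 (δ' + 1 - g) - (δ' - δ + 1 - g) = δ + δ' + 1 - g`. -/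
theorem pencil (c : ℤ)
    (hc : ∀ D : Divisor K F, c ≤ Divisor.degree D → (ell D : ℤ) = Divisor.degree D + 1 - genusR h)
    {D D' : Divisor K F} {a0 a1 : F} (h0 : a0 ≠ 0) (h1 : a1 ≠ 0)
    (hmin : ∀ v : Place K F, min (v.ord a0) (v.ord a1) = - D v)
    (hd1 : c ≤ Divisor.degree D' - Divisor.degree D) (hd2 : c ≤ Divisor.degree D')
    (hd3 : c ≤ Divisor.degree D + Divisor.degree D') :
    ∀ t ∈ LSpace (D + D'), ∃ s0 ∈ LSpace D', ∃ s1 ∈ LSpace D', t = a0 * s0 + a1 * s1 := by
  have ha0 : a0 ∈ LSpace D := Or.inr fun v => by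
    have := hmin v
    have := min_le_left (v.ord a0) (v.ord a1)
    omega
  have ha1 : a1 ∈ LSpace D := Or.inr fun v => by
    have := hmin v
    have := min_le_right (v.ord a0) (v.ord a1)
    omega
  have := finiteDimensional_LSpace h D'
  have := finiteDimensional_LSpace h (D + D')
  have := finiteDimensional_LSpace h (D' - D)
  let Φ : (LSpace D' × LSpace D') →ₗ[K] F :=
    ((LinearMap.mulLeft K a0).comp (LSpace D').subtype).coprod
      ((LinearMap.mulLeft K a1).comp (LSpace D').subtype)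
  have hΦ : ∀ s : LSpace D' × LSpace D', Φ s = a0 * s.1 + a1 * s.2 := fun s => rfl
  have hmem : ∀ (a : F), a ∈ LSpace D → ∀ t : LSpace (D' - D), a * (t : F) ∈ LSpace D' := by
    intro a ha t
    have := mul_mem_LSpace ha t.2
    rwa [add_sub_cancel] at this
  let Θ : LSpace (D' - D) →ₗ[K] (LSpace D' × LSpace D') :=
    (((LinearMap.mulLeft K a1).comp (LSpace (D' - D)).subtype).codRestrict (LSpace D')
      (hmem a1 ha1)).prod
    (-(((LinearMap.mulLeft K a0).comp (LSpace (D' - D)).subtype).codRestrict (LSpace D')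
      (hmem a0 ha0)))
  have hker : LinearMap.ker Φ ≤ LinearMap.range Θ := by
    intro s hs
    rw [LinearMap.mem_ker, hΦ] at hs
    obtain ⟨t, ht, e0, e1⟩ := pencil_kernel h h0 h1 hmin s.1.2 s.2.2 hs
    refine ⟨⟨t, ht⟩, ?_⟩
    apply Prod.ext
    · exact Subtype.ext e0.symm
    · exact Subtype.ext e1.symm
  have hrange : LinearMap.range Φ ≤ LSpace (D + D') := by
    rintro _ ⟨s, rfl⟩
    rw [hΦ]
    exact add_mem (mul_mem_LSpace ha0 s.1.2) (mul_mem_LSpace ha1 s.2.2)
  have k1 := LinearMap.finrank_range_add_finrank_ker Φ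
  rw [Module.finrank_prod] at k1
  have k2 : Module.finrank K (LinearMap.ker Φ) ≤ Module.finrank K (LSpace (D' - D)) :=
    (Submodule.finrank_mono hker).trans (LinearMap.finrank_range_le Θ)
  have r1 := hc D' hd2
  have r2 := hc (D' - D) (by rw [map_sub]; exact hd1)
  have r3 := hc (D + D') (by rw [map_add]; exact hd3)
  rw [map_sub] at r2
  rw [map_add] at r3
  unfold ell at r1 r2 r3
  have k3 : Module.finrank K (LSpace (D + D')) ≤ Module.finrank K (LinearMap.range Φ) := by
    omega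
  have heq : LinearMap.range Φ = LSpace (D + D') := Submodule.eq_of_le_of_finrank_le hrange k3
  intro t ht
  rw [← heq] at ht
  obtain ⟨s, rfl⟩ := ht
  exact ⟨s.1, s.1.2, s.2, s.2.2, hΦ s⟩

end Fermat.Agent.S17.GEO
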