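import Fermat.Agent.S17.GEO.ZU

set_option autoImplicit false

/-!
# S17 / GEO : Galois stable divisors
-/

namespace Fermat.Agent.S17.GEO

open AlgebraicCurve Fermat.Agent.S24 Fermat.Agent.RL HL

namespace RatCurve

variable (R : RatCurve)

/-- Galois stable multisets of places -/
def IsRat (E : Multiset (Place Qb R.F)) : Prop := ∀ σ : GQ, E.map (fun v => R.ρ σ • v) = E

theorem isRat_iff (E : Multiset (Place Qb R.F)) : R.IsRat E ↔ ∀ σ : GQ, R.ρ σ • ofMS E = ofMS E := by
  refine forall_congr' fun σ => ?_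
  rw [← ofMS_map_smul]
  exact ⟨fun h => by rw [h], fun h => ofMS_injective h⟩

theorem isRat_add (E E' : Multiset (Place Qb R.F)) (h : R.IsRat E) (h' : R.IsRat E') :
    R.IsRat (E + E') := by
  intro σ
  rw [Multiset.map_add, h σ, h' σ]

theorem isRat_of_add (E E' : Multiset (Place Qb R.F)) (h : R.IsRat (E + E')) (h' : R.IsRat E) :
    R.IsRat E' := by
  intro σ
  have h1 := h σ
  rw [Multiset.map_add, h' σ] at h1
  exact add_left_cancel h1

theorem isRat_replicate (n : ℕ) : R.IsRat (Multiset.replicate n R.o) := by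
  intro σ
  rw [Multiset.map_replicate, R.fix_o]

theorem isRat_Z (m : ℕ) (s : Fin (R.d m) → ℚ) (hs : s ≠ 0) : R.IsRat (R.Z m (cst s)) := by
  have hs' : cst s ≠ 0 := by
    intro h0
    apply hs
    funext i
    have := congrFun h0 i
    simpa [cst] using this
  rw [isRat_iff]
  intro σ
  rw [R.ofMS_Z m _ hs', smul_add, ← dvs_semilinear, R.isInv_ev_cst m s σ, R.smul_mo]

/-- `U m E` is stable under the coordinatewise action (`smul_ev`, `smul_mem_LSpace`); `definedOver_rat_of_stable`. -/
theorem definedOver_rat (m : ℕ) (E : Multiset (Place Qb R.F)) (h : R.IsRat E) :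
    DefinedOver (algebraMap ℚ Qb) (R.U m E) := by
  apply definedOver_rat_of_stable
  intro σ x hx
  unfold U at hx ⊢
  rw [Submodule.mem_comap] at hx ⊢
  rw [← R.smul_ev]
  have h1 := smul_mem_LSpace (R.ρ σ) hx
  rwa [smul_sub, R.smul_mo, (R.isRat_iff E).1 h σ] at h1

end RatCurve

end Fermat.Agent.S17.GEO
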