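import Fermat.Agent.S17.GEO.Basis

set_option autoImplicit false

/-!
# S17 / GEO : zero divisors `Z m s` and the spaces `U m E`
-/

namespace Fermat.Agent.S17.GEO

open AlgebraicCurve Fermat.Agent.S24 Fermat.Agent.RL HL

namespace RatCurve

variable (R : RatCurve)

/-- the effective divisor `div (ev s) + m o` as a multiset -/
noncomputable def Z (m : ℕ) (s : Fin (R.d m) → Qb) : Multiset (Place Qb R.F) :=
  toMS (dvs R.ff1 (R.ev m s) + R.mo m)

/-- `L(m o - E)` in coordinates -/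
noncomputable def U (m : ℕ) (E : Multiset (Place Qb R.F)) : Submodule Qb (Fin (R.d m) → Qb) :=
  (LSpace (R.mo m - ofMS E)).comap (R.ev m)

theorem eff_Z (m : ℕ) (s : Fin (R.d m) → Qb) (hs : s ≠ 0) :
    Eff (dvs R.ff1 (R.ev m s) + R.mo m) := by
  have hne : R.ev m s ≠ 0 := fun h0 => hs ((R.ev_eq_zero_iff m s).1 h0)
  exact (mem_LSpace_iff_dvs R.ff1 hne).1 (R.ev_mem m s)

theorem ofMS_Z (m : ℕ) (s : Fin (R.d m) → Qb) (hs : s ≠ 0) :
    ofMS (R.Z m s) = dvs R.ff1 (R.ev m s) + R.mo m := by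
  exact ofMS_toMS (R.eff_Z m s hs)

theorem card_Z (m : ℕ) (s : Fin (R.d m) → Qb) (hs : s ≠ 0) : Multiset.card (R.Z m s) = m := by
  have h1 := card_toMS R.ff1 (R.eff_Z m s hs)
  rw [map_add, degree_dvs, R.degree_mo, zero_add] at h1
  exact_mod_cast h1

theorem Z_smul (m : ℕ) (c : Qb) (s : Fin (R.d m) → Qb) (hc : c ≠ 0) :
    R.Z m (c • s) = R.Z m s := by
  unfold Z
  rw [map_smul, dvs_smul R.ff1 hc]

theorem mul_ne_zero (m m' : ℕ) (s : Fin (R.d m) → Qb) (s' : Fin (R.d m') → Qb) (hs : s ≠ 0)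
    (hs' : s' ≠ 0) : (R.T m m').mul s s' ≠ 0 := by
  intro h0
  have h1 := R.ev_mul m m' s s'
  rw [h0, map_zero] at h1
  rcases mul_eq_zero.1 h1.symm with h2 | h2
  · exact hs ((R.ev_eq_zero_iff m s).1 h2)
  · exact hs' ((R.ev_eq_zero_iff m' s').1 h2)

theorem Z_mul (m m' : ℕ) (s : Fin (R.d m) → Qb) (s' : Fin (R.d m') → Qb) (hs : s ≠ 0)
    (hs' : s' ≠ 0) : R.Z (m + m') ((R.T m m').mul s s') = R.Z m s + R.Z m' s' := by
  have hne : R.ev m s ≠ 0 := fun h0 => hs ((R.ev_eq_zero_iff m s).1 h0)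
  have hne' : R.ev m' s' ≠ 0 := fun h0 => hs' ((R.ev_eq_zero_iff m' s').1 h0)
  unfold Z
  rw [← toMS_add (R.eff_Z m s hs) (R.eff_Z m' s' hs'), R.ev_mul, dvs_mul R.ff1 hne hne', R.mo_add]
  congr 1
  abel

theorem mem_U (m : ℕ) (E : Multiset (Place Qb R.F)) (s : Fin (R.d m) → Qb) :
    s ∈ R.U m E ↔ s = 0 ∨ E ≤ R.Z m s := by
  by_cases hs : s = 0
  · subst hs
    simp
  have hne : R.ev m s ≠ 0 := fun h0 => hs ((R.ev_eq_zero_iff m s).1 h0)
  unfold U
  rw [Submodule.mem_comap, mem_LSpace_iff_dvs R.ff1 hne, le_iff_ofMS_le, R.ofMS_Z m s hs]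
  constructor
  · intro h
    right
    intro v
    have := h v
    rw [Finsupp.add_apply, Finsupp.sub_apply] at this
    rw [Finsupp.add_apply]
    omega
  · rintro (h | h)
    · exact absurd h hs
    · intro v
      have := h v
      rw [Finsupp.add_apply] at this
      rw [Finsupp.add_apply, Finsupp.sub_apply]
      omega

/-- `ev` identifies `U m E` with `L(m o - E)` (which is contained in `V m`). -/
theorem map_U (m : ℕ) (E : Multiset (Place Qb R.F)) :
    (R.U m E).map (R.ev m) = LSpace (R.mo m - ofMS E) := by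
  unfold U
  rw [Submodule.map_comap_eq, R.range_ev, inf_eq_right]
  refine LSpace_mono fun v => ?_
  have := eff_ofMS E v
  rw [Finsupp.sub_apply]
  omega

theorem finrank_U_eq (m : ℕ) (E : Multiset (Place Qb R.F)) :
    Module.finrank Qb (R.U m E) = ell (R.mo m - ofMS E) := by
  unfold ell
  rw [← R.map_U m E]
  exact (Submodule.equivMapOfInjective (R.ev m) (R.ev_injective m) (R.U m E)).finrank_eq

theorem finrank_U (m : ℕ) (E : Multiset (Place Qb R.F)) (h : Multiset.card E + R.c0 ≤ m) :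
    Module.finrank Qb (R.U m E) + Multiset.card E = R.d m := by
  have h1 := R.riemann (R.mo m - ofMS E) (by
    rw [map_sub, R.degree_mo, degree_ofMS R.ff1]
    have : (Multiset.card E : ℤ) + R.c0 ≤ m := by exact_mod_cast h
    omega)
  rw [map_sub, R.degree_mo, degree_ofMS R.ff1, ← R.finrank_U_eq] at h1
  have h2 := R.d_eq m (by omega)
  have h2' : (R.d m : ℤ) + R.g = m + 1 := by exact_mod_cast h2
  have : (Module.finrank Qb (R.U m E) : ℤ) + Multiset.card E = R.d m := by omega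
  exact_mod_cast this

theorem exists_div (j m : ℕ) (a : Fin (R.d j) → Qb) (t : Fin (R.d (j + m)) → Qb) (ha : a ≠ 0)
    (ht : t ≠ 0) (hle : R.Z j a ≤ R.Z (j + m) t) : ∃ s, t = (R.T j m).mul a s := by
  have hna : R.ev j a ≠ 0 := fun h0 => ha ((R.ev_eq_zero_iff j a).1 h0)
  have hnt : R.ev (j + m) t ≠ 0 := fun h0 => ht ((R.ev_eq_zero_iff (j + m) t).1 h0)
  have hmem : R.ev (j + m) t / R.ev j a ∈ R.Vs m := by
    unfold Vs
    rw [mem_LSpace_iff_dvs R.ff1 (div_ne_zero hnt hna), div_eq_mul_inv,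
      dvs_mul R.ff1 hnt (inv_ne_zero hna), dvs_inv]
    intro v
    have h1 := (le_iff_ofMS_le _ _).1 hle v
    rw [R.ofMS_Z j a ha, R.ofMS_Z (j + m) t ht, R.mo_add] at h1
    simp only [Finsupp.add_apply, Finsupp.neg_apply] at h1 ⊢
    omega
  rw [← R.range_ev m] at hmem
  obtain ⟨s, hs⟩ := hmem
  refine ⟨s, R.ev_injective (j + m) ?_⟩
  rw [R.ev_mul, hs, mul_div_cancel₀ _ hna]

theorem eq_smul_of_Z_eq (m : ℕ) (s s' : Fin (R.d m) → Qb) (hs : s ≠ 0) (hs' : s' ≠ 0)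
    (h : R.Z m s = R.Z m s') : ∃ c : Qb, c ≠ 0 ∧ s' = c • s := by
  have hne : R.ev m s ≠ 0 := fun h0 => hs ((R.ev_eq_zero_iff m s).1 h0)
  have hne' : R.ev m s' ≠ 0 := fun h0 => hs' ((R.ev_eq_zero_iff m s').1 h0)
  have h1 := congrArg ofMS h
  rw [R.ofMS_Z m s hs, R.ofMS_Z m s' hs'] at h1
  obtain ⟨c, hc, he⟩ := exists_smul_of_dvs_eq R.ff1 hne hne' (add_right_cancel h1)
  refine ⟨c, hc, R.ev_injective m ?_⟩
  rw [he, map_smul]

theorem one_ne_zero (m : ℕ) : R.one m ≠ 0 := by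
  intro h0
  have h1 := R.ev_one m
  have h2 : cst (R.one m) = 0 := by
    rw [h0]
    funext i
    simp [cst]
  rw [h2, map_zero] at h1
  exact zero_ne_one h1

theorem Z_one (m : ℕ) : R.Z m (cst (R.one m)) = Multiset.replicate m R.o := by
  unfold Z
  rw [R.ev_one, dvs_one, zero_add, mo, ← ofMS_replicate, toMS_ofMS]

end RatCurve

end Fermat.Agent.S17.GEO
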